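import Fermat.Agent.Icosa.Gam

set_option autoImplicit false

/-!
# Every point of order 5 is a combination of the two basic ones; transport
-/

open WeierstrassCurve WeierstrassCurve.Affine WeierstrassCurve.Affine.Point

namespace Fermat.Agent.Icosa

variable {k : Type*} [Field k]

section poly
open Polynomial

/-- the 5-division polynomial of `y² = x³ + A x + B` -/
noncomputable def psi (A B : k) : k[X] :=
  C 5*X^12 + C (62*A)*X^10 + C (380*B)*X^9 + C (-105*A^2)*X^8 + C (240*A*B)*X^7 +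
    C (-300*A^3-240*B^2)*X^6 + C (-696*A^2*B)*X^5 + C (-125*A^4-1920*A*B^2)*X^4 +
    C (-80*B*A^3-1600*B^3)*X^3 + C (-50*A^5-240*A^2*B^2)*X^2 + C (-100*A^4*B-640*A*B^3)*X +
    C (A^6-32*B^2*A^3-256*B^4)

lemma psi_natDegree_le (A B : k) : (psi A B).natDegree ≤ 12 := by
  unfold psi
  compute_degree

lemma psi_ne_zero (h5 : (5 : k) ≠ 0) (A B : k) : psi A B ≠ 0 := by
  intro h
  have : (psi A B).coeff 12 = 5 := by
    unfold psi
    compute_degree
    all_goals norm_num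
  rw [h, coeff_zero] at this
  exact h5 this.symm

lemma psi_root (v w : k) : (psi (-27 * V4 v w) (-54 * V6 v w)).eval (Xc v w) = 0 := by
  unfold psi
  simp only [eval_add, eval_mul, eval_C, eval_pow, eval_X]
  unfold V4 V6 Xc
  ring

end poly

variable [DecidableEq k]

/-- the abscissa of a point -/
def xc {W : WeierstrassCurve k} : W.toAffine.Point → k
  | 0 => 0
  | .some x _ _ => x

omit [DecidableEq k] in
lemma eq_or_eq_neg_of_xc {W : WeierstrassCurve k} {A B : W.toAffine.Point} (hA : A ≠ 0)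
    (hB : B ≠ 0) (h : xc A = xc B) : A = B ∨ A = -B := by
  match A, B, hA, hB, h with
  | .some x y h1, .some x' y' h2, _, _, h =>
    have h : x = x' := h
    rcases Y_eq_of_X_eq h1.1 h2.1 h with hy | hy
    · left
      subst h; subst hy; rfl
    · right
      subst h; subst hy; rw [neg_some]

section

variable {W : WeierstrassCurve k} {c4 c6 : k} (hW : Sh W c4 c6) {ζ : k}
  (hζ : ζ^4 + ζ^3 + ζ^2 + ζ + 1 = 0) (h2 : (2 : k) ≠ 0) (h3 : (3 : k) ≠ 0) (h5 : (5 : k) ≠ 0)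
  (hd : c4 ^ 3 ≠ c6 ^ 2)
include hW hζ h2 h3 h5 hd

omit hW h2 h3 hd [DecidableEq k] in
lemma xc_root {u : k × k} (hH : Hp u = c4) (hT : Tp u = c6) {U : W.toAffine.Point}
    (hU : At W ζ u U) : (psi (-27 * c4) (-54 * c6)).eval (xc U) = 0 := by
  obtain ⟨h, rfl⟩ := hU
  have h1 := psi_root (pv ζ u) (pw ζ u)
  rw [V4_p hζ h5, V6_p hζ h5, hH, hT] at h1
  exact h1

lemma indep {p : k × k} (hH : Hp p = c4) (hT : Tp p = c6) {R Q : W.toAffine.Point}
    (hR : At W ζ p R) (hQ : At W ζ (Sm ζ p) Q) {i j : ℤ} (h : i • R + j • Q = 0) :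
    (i : ZMod 5) = 0 ∧ (j : ZMod 5) = 0 := by
  by_contra hij
  obtain ⟨g, hg, hg'⟩ := exists_good hζ h2 h3 h5 i j hij
  exact Rep.ne_zero (hg' W c4 c6 hW hd p hH hT R Q hR hQ) h

/-- Every point of order 5 in the family is a combination of the two basic points. -/
lemma exists_comb {p : k × k} (hH : Hp p = c4) (hT : Tp p = c6) {R Q : W.toAffine.Point}
    (hR : At W ζ p R) (hQ : At W ζ (Sm ζ p) Q) {u : k × k} (hHu : Hp u = c4) (hTu : Tp u = c6)
    {U : W.toAffine.Point} (hU : At W ζ u U) : ∃ i j : ℤ, U = i • R + j • Q := by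
  classical
  have hR5 := At.five hW hζ h2 h3 h5 hd hH hT hR
  have hS := good_Sm hζ h5
  have hQ5 := At.five hW hζ h2 h3 h5 hd (by rw [hS.H, hH]) (by rw [hS.T, hT]) hQ
  let ψ : ZMod 5 × ZMod 5 →+ W.toAffine.Point :=
    (ZMod.lift 5 ⟨zmultiplesHom _ R, by simpa using hR5⟩).coprod
      (ZMod.lift 5 ⟨zmultiplesHom _ Q, by simpa using hQ5⟩)
  have hψ : ∀ a b : ℤ, ψ ((a : ZMod 5), (b : ZMod 5)) = a • R + b • Q := by
    intro a b
    simp only [ψ, AddMonoidHom.coprod_apply]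
    rw [ZMod.lift_coe, ZMod.lift_coe]
    rfl
  have hsurj : ∀ z : ZMod 5 × ZMod 5, ∃ a b : ℤ, z = ((a : ZMod 5), (b : ZMod 5)) := by
    intro z
    exact ⟨z.1.val, z.2.val, by simp⟩
  have hinj : Function.Injective ψ := by
    rw [injective_iff_map_eq_zero]
    intro z hz
    obtain ⟨a, b, rfl⟩ := hsurj z
    rw [hψ] at hz
    obtain ⟨h1, h2⟩ := indep hW hζ h2 h3 h5 hd hH hT hR hQ hz
    rw [h1, h2]; rfl
  have hne : ∀ z : ZMod 5 × ZMod 5, z ≠ 0 → ψ z ≠ 0 := fun z hz h => hz (hinj (by rw [h, _root_.map_zero]))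
  let s : Finset (ZMod 5 × ZMod 5) := Finset.univ.erase 0
  have hs : s.card = 24 := by decide
  have hroot : ∀ z ∈ s, (psi (-27 * c4) (-54 * c6)).eval (xc (ψ z)) = 0 := by
    intro z hz
    have hz0 : z ≠ 0 := Finset.ne_of_mem_erase hz
    obtain ⟨a, b, rfl⟩ := hsurj z
    rw [hψ]
    have hij : ¬ ((a : ZMod 5) = 0 ∧ (b : ZMod 5) = 0) := by
      rintro ⟨h1, h2⟩
      exact hz0 (by rw [h1, h2]; rfl)
    obtain ⟨g, hg, hg'⟩ := exists_good hζ h2 h3 h5 a b hij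
    have := hg' W c4 c6 hW hd p hH hT R Q hR hQ
    exact xc_root hζ h5 (by rw [hg.H, hH]) (by rw [hg.T, hT]) this
  have hpne := psi_ne_zero h5 (-27 * c4) (-54 * c6)
  have hfib : ∀ a ∈ s.image (fun z => xc (ψ z)), (s.filter (fun z => xc (ψ z) = a)).card ≤ 2 := by
    intro a ha
    obtain ⟨z0, hz0, rfl⟩ := Finset.mem_image.mp ha
    have : s.filter (fun z => xc (ψ z) = xc (ψ z0)) ⊆ {z0, -z0} := by
      intro z hz
      obtain ⟨hz1, hz2⟩ := Finset.mem_filter.mp hz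
      rcases eq_or_eq_neg_of_xc (hne _ (Finset.ne_of_mem_erase hz1))
        (hne _ (Finset.ne_of_mem_erase hz0)) hz2 with h | h
      · rw [hinj h]; simp
      · rw [← map_neg] at h
        rw [hinj h]; simp
    exact (Finset.card_le_card this).trans Finset.card_le_two
  have hcard : 12 ≤ (s.image (fun z => xc (ψ z))).card := by
    have := Finset.card_le_mul_card_image s 2 hfib
    rw [hs] at this
    omega
  have hmem : xc U ∈ s.image (fun z => xc (ψ z)) := by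
    by_contra hU'
    have h1 : insert (xc U) (s.image (fun z => xc (ψ z))) ⊆
        (psi (-27 * c4) (-54 * c6)).roots.toFinset := by
      intro a ha
      rw [Multiset.mem_toFinset, Polynomial.mem_roots hpne, Polynomial.IsRoot.def]
      rcases Finset.mem_insert.mp ha with rfl | ha
      · exact xc_root hζ h5 hHu hTu hU
      · obtain ⟨z0, hz0, rfl⟩ := Finset.mem_image.mp ha
        exact hroot z0 hz0
    have h2 := Finset.card_le_card h1
    rw [Finset.card_insert_of_notMem hU'] at h2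
    have h3 := (Multiset.toFinset_card_le (psi (-27 * c4) (-54 * c6)).roots).trans
      ((Polynomial.card_roots' _).trans (psi_natDegree_le _ _))
    omega
  obtain ⟨z0, hz0, h⟩ := Finset.mem_image.mp hmem
  rcases eq_or_eq_neg_of_xc (hne _ (Finset.ne_of_mem_erase hz0)) (Rep.ne_zero hU) h with h | h
  · obtain ⟨a, b, rfl⟩ := hsurj z0
    exact ⟨a, b, by rw [← h, hψ]⟩
  · obtain ⟨a, b, rfl⟩ := hsurj z0
    refine ⟨-a, -b, ?_⟩
    rw [hψ] at h
    rw [neg_smul, neg_smul, ← neg_add, h, neg_neg]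

end

section transport

variable {W : WeierstrassCurve k} {c4 c6 : k} (hW : Sh W c4 c6) {ζ : k}
  (hζ : ζ^4 + ζ^3 + ζ^2 + ζ + 1 = 0) (h2 : (2 : k) ≠ 0) (h3 : (3 : k) ≠ 0) (h5 : (5 : k) ≠ 0)
  (hd : c4 ^ 3 ≠ c6 ^ 2)

omit [DecidableEq k] in
lemma Ph_congr {l m : k} {u p : k × k} (h1 : u.1 ^ 5 = p.1 ^ 5) (h2 : u.2 ^ 5 = p.2 ^ 5) :
    (Ph l m u).1 ^ 5 = (Ph l m p).1 ^ 5 ∧ (Ph l m u).2 ^ 5 = (Ph l m p).2 ^ 5 := by
  simp only [Ph, mul_pow, h1, h2, and_self]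

include hW hζ h2 h3 h5 hd in
/-- Transport of linear relations. -/
theorem transport {l m : k} {W' : WeierstrassCurve k} (hW' : Sh W' (CC4 c4 c6 l m) (CC6 c4 c6 l m))
    (hd' : CC4 c4 c6 l m ^ 3 ≠ CC6 c4 c6 l m ^ 2)
    {p : k × k} (hH : Hp p = c4) (hT : Tp p = c6) {R Q : W.toAffine.Point}
    (hR : At W ζ p R) (hQ : At W ζ (Sm ζ p) Q) {R' Q' : W'.toAffine.Point}
    (hR' : At W' ζ (Ph l m p) R') (hQ' : At W' ζ (Sm ζ (Ph l m p)) Q')
    {u : k × k} (hHu : Hp u = c4) (hTu : Tp u = c6)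
    {U : W.toAffine.Point} (hU : At W ζ u U) {U' : W'.toAffine.Point}
    (hU' : At W' ζ (Ph l m u) U') :
    ∃ i j : ℤ, ¬ ((i : ZMod 5) = 0 ∧ (j : ZMod 5) = 0) ∧ U = i • R + j • Q ∧
      U' = i • R' + j • Q' := by
  obtain ⟨i, j, hij⟩ := exists_comb hW hζ h2 h3 h5 hd hH hT hR hQ hHu hTu hU
  have hR5 := At.five hW hζ h2 h3 h5 hd hH hT hR
  have hS := good_Sm hζ h5
  have hQ5 := At.five hW hζ h2 h3 h5 hd (by rw [hS.H, hH]) (by rw [hS.T, hT]) hQ
  have hne : ¬ ((i : ZMod 5) = 0 ∧ (j : ZMod 5) = 0) := by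
    rintro ⟨hi, hj⟩
    have e1 : i • R = (0 : ℤ) • R := zsmul_congr hR5 (by rw [hi]; simp)
    have e2 : j • Q = (0 : ℤ) • Q := zsmul_congr hQ5 (by rw [hj]; simp)
    rw [e1, e2, zero_smul, zero_smul, add_zero] at hij
    exact Rep.ne_zero hU hij
  refine ⟨i, j, hne, hij, ?_⟩
  obtain ⟨g, hg, hg'⟩ := exists_good hζ h2 h3 h5 i j hne
  have h6 := hg' W c4 c6 hW hd p hH hT R Q hR hQ
  rw [← hij] at h6
  obtain ⟨e1, e2⟩ := Rep.inj h2 h3 (c4 := c4) (c6 := c6) (by rw [V4_p hζ h5, hHu])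
    (by rw [V6_p hζ h5, hTu]) hd (by rw [V4_p hζ h5, hg.H, hH]) hU h6
  obtain ⟨e3, e4⟩ := pv_inj hζ h5 e1 e2
  obtain ⟨e5, e6⟩ := Ph_congr (l := l) (m := m) e3 e4
  have h7 := hg' W' _ _ hW' hd' (Ph l m p) (by rw [Hp_Ph, hH, hT]) (by rw [Tp_Ph, hH, hT])
    R' Q' hR' hQ'
  rw [← hg.Ph] at h7
  refine Rep.unique hU' ?_
  rw [pv, pw, e5, e6]
  exact h7

end transport

end Fermat.Agent.Icosa
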