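import Fermat.Agent.Icosa.Disc

set_option autoImplicit false

/-!
# Covariance of the forms
-/

namespace Fermat.Agent.Icosa

variable {R : Type*} [CommRing R]

section map

variable {S : Type*} [CommRing S] (φ : R →+* S)

lemma map_H4 (X Y : R) : φ (H4 X Y) = H4 (φ X) (φ Y) := by
  simp only [H4, map_add, map_sub, map_mul, map_neg, map_pow, map_ofNat]

lemma map_T6 (X Y : R) : φ (T6 X Y) = T6 (φ X) (φ Y) := by
  simp only [T6, map_add, map_sub, map_mul, map_neg, map_pow, map_ofNat]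

lemma map_FA (X Y : R) : φ (FA X Y) = FA (φ X) (φ Y) := by
  simp only [FA, map_add, map_sub, map_mul, map_neg, map_pow, map_ofNat]

lemma map_FB (X Y : R) : φ (FB X Y) = FB (φ X) (φ Y) := by
  simp only [FB, map_add, map_sub, map_mul, map_neg, map_pow, map_ofNat]

lemma map_Q2 (X Y : R) : φ (Q2 X Y) = Q2 (φ X) (φ Y) := by
  simp only [Q2, map_add, map_sub, map_mul, map_neg, map_pow, map_ofNat]

lemma map_DD (c4 c6 l m : R) : φ (DD c4 c6 l m) = DD (φ c4) (φ c6) (φ l) (φ m) := by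
  simp only [DD, map_add, map_sub, map_mul, map_neg, map_pow, map_one, map_ofNat]

lemma map_CC4 (c4 c6 l m : R) : φ (CC4 c4 c6 l m) = CC4 (φ c4) (φ c6) (φ l) (φ m) := by
  simp only [CC4, CC4_0, CC4_1, CC4_2, map_add, map_sub, map_mul, map_neg, map_pow, map_ofNat]

lemma map_CC6 (c4 c6 l m : R) : φ (CC6 c4 c6 l m) = CC6 (φ c4) (φ c6) (φ l) (φ m) := by
  simp only [CC6, CC6_0, CC6_1, CC6_2, CC6_3, map_add, map_sub, map_mul, map_neg, map_pow,
    map_ofNat]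

end map

lemma CC4_one_zero (c4 c6 : R) : CC4 c4 c6 1 0 = c4 := by
  simp [CC4, CC4_0, CC4_1, CC4_2]

lemma CC6_one_zero (c4 c6 : R) : CC6 c4 c6 1 0 = c6 := by
  simp [CC6, CC6_0, CC6_1, CC6_2, CC6_3]

lemma DD_one_zero (c4 c6 : R) : DD c4 c6 1 0 = 1 := by
  simp [DD]

lemma H4_cov_dom [IsDomain R] [CharZero R] (X Y l m : R) (hQ : Q2 X Y ≠ 0) (hm : m ≠ 0) :
    H4 (X * (l + m * FA X Y) ^ 5) (Y * (l - m * FB X Y) ^ 5) = CC4 (H4 X Y) (T6 X Y) l m := by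
  have h0 := DD_cov X Y l m
  have h1 := DD1_cov X Y l m
  have h2 := DD2_cov X Y l m
  have h3 := CC4_hess (H4 X Y) (T6 X Y) l m
  have h4 := hess_uw X Y (l + m * FA X Y) (l - m * FB X Y)
  rw [h0, h1, h2] at h4
  have h5 : (l + m * FA X Y) - (l - m * FB X Y) = 12 * m * Q2 X Y := by
    unfold FA FB Q2; ring
  rw [h5] at h4
  have hne : (17424 : R) * m ^ 2 * Q2 X Y ^ 2 ≠ 0 := by
    apply mul_ne_zero (mul_ne_zero (by norm_num) (pow_ne_zero _ hm)) (pow_ne_zero _ hQ)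
  apply mul_left_cancel₀ hne
  linear_combination (-1 : R) * h4 + Q2 X Y ^ 2 * h3

lemma T6_cov_dom [IsDomain R] (X Y l m : R)
    (h : H4 (X * (l + m * FA X Y) ^ 5) (Y * (l - m * FB X Y) ^ 5) = CC4 (H4 X Y) (T6 X Y) l m) :
    T6 (X * (l + m * FA X Y) ^ 5) (Y * (l - m * FB X Y) ^ 5) = CC6 (H4 X Y) (T6 X Y) l m ∨
    T6 (X * (l + m * FA X Y) ^ 5) (Y * (l - m * FB X Y) ^ 5) = -CC6 (H4 X Y) (T6 X Y) l m := by
  apply sq_eq_sq_iff_eq_or_eq_neg.mp
  have h0 := DD_cov X Y l m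
  have h1 := CC_disc (H4 X Y) (T6 X Y) l m
  have h2 := H4_T6 (X * (l + m * FA X Y) ^ 5) (Y * (l - m * FB X Y) ^ 5)
  have h3 := H4_T6 X Y
  rw [h] at h2
  rw [h3] at h1
  have h4 : -1728 * (X * (l + m * FA X Y) ^ 5) * (Y * (l - m * FB X Y) ^ 5) *
      Q2 (X * (l + m * FA X Y) ^ 5) (Y * (l - m * FB X Y) ^ 5) ^ 5 =
      -1728 * X * Y * (Q2 X Y * DD (H4 X Y) (T6 X Y) l m) ^ 5 := by
    rw [← h0]; ring
  rw [h4] at h2
  linear_combination h1 - h2

open MvPolynomial in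
lemma cov_aux : (H4 (X 0 * (X 2 + X 3 * FA (X 0) (X 1)) ^ 5)
      (X 1 * (X 2 - X 3 * FB (X 0) (X 1)) ^ 5) : MvPolynomial (Fin 4) ℤ) =
      CC4 (H4 (X 0) (X 1)) (T6 (X 0) (X 1)) (X 2) (X 3) ∧
    (T6 (X 0 * (X 2 + X 3 * FA (X 0) (X 1)) ^ 5)
      (X 1 * (X 2 - X 3 * FB (X 0) (X 1)) ^ 5) : MvPolynomial (Fin 4) ℤ) =
      CC6 (H4 (X 0) (X 1)) (T6 (X 0) (X 1)) (X 2) (X 3) := by
  have hH : (H4 (X 0 * (X 2 + X 3 * FA (X 0) (X 1)) ^ 5)
      (X 1 * (X 2 - X 3 * FB (X 0) (X 1)) ^ 5) : MvPolynomial (Fin 4) ℤ) =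
      CC4 (H4 (X 0) (X 1)) (T6 (X 0) (X 1)) (X 2) (X 3) := by
    apply H4_cov_dom
    · intro h
      have := congrArg (MvPolynomial.eval (![1, 0, 1, 0] : Fin 4 → ℤ)) h
      rw [map_Q2] at this
      simp [Q2] at this
    · exact MvPolynomial.X_ne_zero _
  refine ⟨hH, ?_⟩
  rcases T6_cov_dom _ _ _ _ hH with h | h
  · exact h
  · exfalso
    have := congrArg (MvPolynomial.eval (![1, 0, 1, 0] : Fin 4 → ℤ)) h
    rw [map_neg, map_T6, map_CC6] at this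
    simp only [map_mul, map_pow, map_add, map_sub, map_T6, map_H4, map_FA, map_FB,
      MvPolynomial.eval_X] at this
    simp [CC6_one_zero, T6] at this

/-- Covariance of the icosahedral form of degree 20. -/
lemma H4_cov (X Y l m : R) :
    H4 (X * (l + m * FA X Y) ^ 5) (Y * (l - m * FB X Y) ^ 5) = CC4 (H4 X Y) (T6 X Y) l m := by
  have := congrArg (MvPolynomial.eval₂Hom (Int.castRingHom R) ![X, Y, l, m]) cov_aux.1
  simp only [map_mul, map_pow, map_add, map_sub, map_T6, map_H4, map_FA, map_FB, map_CC4,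
      MvPolynomial.coe_eval₂Hom, MvPolynomial.eval₂_X] at this
  exact this

/-- Covariance of the icosahedral form of degree 30. -/
lemma T6_cov (X Y l m : R) :
    T6 (X * (l + m * FA X Y) ^ 5) (Y * (l - m * FB X Y) ^ 5) = CC6 (H4 X Y) (T6 X Y) l m := by
  have := congrArg (MvPolynomial.eval₂Hom (Int.castRingHom R) ![X, Y, l, m]) cov_aux.2
  simp only [map_mul, map_pow, map_add, map_sub, map_T6, map_H4, map_FA, map_FB, map_CC6,
      MvPolynomial.coe_eval₂Hom, MvPolynomial.eval₂_X] at this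
  exact this

end Fermat.Agent.Icosa
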