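import Fermat.Agent.Icosa.Forms

set_option autoImplicit false

/-!
# The discriminant identity `CC4³ - CC6² = (c4³ - c6²) DD⁵`
-/

namespace Fermat.Agent.Icosa

variable {R : Type*} [CommRing R]

set_option maxHeartbeats 0 in
lemma CC_disc (c4 c6 l m : R) :
    CC4 c4 c6 l m ^ 3 - CC6 c4 c6 l m ^ 2 = (c4 ^ 3 - c6 ^ 2) * DD c4 c6 l m ^ 5 := by
  unfold CC4 CC4_0 CC4_1 CC4_2 CC6 CC6_0 CC6_1 CC6_2 CC6_3 DD; ring

end Fermat.Agent.Icosa
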