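import Fermat.Agent.Icosa.Count

set_option autoImplicit false

/-!
# Existence of the parameter; action of field homomorphisms
-/

namespace Fermat.Agent.Icosa

variable {k : Type*} [Field k]

section conj

variable {ζ : k} (hζ : ζ^4 + ζ^3 + ζ^2 + ζ + 1 = 0) (h5 : (5 : k) ≠ 0)
include hζ

lemma zeta_sq : (ζ^2)^4 + (ζ^2)^3 + (ζ^2)^2 + (ζ^2) + 1 = 0 := by
  linear_combination (ζ^4 - ζ^3 + ζ^2 - ζ + 1) * hζ

include h5

lemma conj2 (p : k × k) : pv (ζ^2) p = pv ζ (sm p) ∧ pw (ζ^2) p = pw ζ (sm p) := by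
  have h1 := five_pv hζ h5 p
  have h2 := five_pw hζ h5 p
  have h3 := five_pv (zeta_sq hζ) h5 p
  have h4 := five_pw (zeta_sq hζ) h5 p
  rw [pv_sm, pw_sm]
  constructor
  · apply mul_left_cancel₀ h5
    rw [h3, h2]
    unfold A1 B1
    linear_combination (-(p.1 ^ 5) * (ζ^2 - ζ + 7) + p.2 ^ 5 * (7*ζ^2 - 7*ζ - 1)) * hζ
  · apply mul_left_cancel₀ h5
    rw [mul_neg, h1, h4]
    unfold A1 B1
    linear_combination (p.1 ^ 5 * (7*ζ^2 - 7*ζ - 1) + p.2 ^ 5 * (ζ^2 - ζ + 7)) * hζ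

end conj

lemma conj_pow (n : ℕ) {ζ : k} (hζ : ζ^4 + ζ^3 + ζ^2 + ζ + 1 = 0) (h5 : (5 : k) ≠ 0)
    (p : k × k) :
    pv (ζ^(2^n)) p = pv ζ (sm^[n] p) ∧ pw (ζ^(2^n)) p = pw ζ (sm^[n] p) := by
  induction n generalizing ζ p with
  | zero => simp
  | succ n ih =>
    rw [pow_succ', pow_mul, Function.iterate_succ_apply']
    obtain ⟨h1, h2⟩ := ih (zeta_sq hζ) p
    obtain ⟨h3, h4⟩ := conj2 hζ h5 (sm^[n] p)
    rw [h1, h2, h3, h4]
    exact ⟨rfl, rfl⟩

lemma exists_conj {ζ : k} (hζ : ζ^4 + ζ^3 + ζ^2 + ζ + 1 = 0) (h5 : (5 : k) ≠ 0) (q : ℕ)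
    (hq : ¬ 5 ∣ q) :
    ∃ n : ℕ, ∀ p, pv (ζ^q) p = pv ζ (sm^[n] p) ∧ pw (ζ^q) p = pw ζ (sm^[n] p) := by
  have h := zeta_pow hζ
  have e : ζ^q = ζ^(q % 5) := by
    conv_lhs => rw [← Nat.div_add_mod q 5, pow_add, pow_mul, h, one_pow, one_mul]
  have hlt := Nat.mod_lt q (show 0 < 5 by norm_num)
  have hne : q % 5 ≠ 0 := fun h0 => hq (Nat.dvd_of_mod_eq_zero h0)
  rw [e]
  generalize q % 5 = r at hlt hne
  interval_cases r
  · exact absurd rfl hne
  · exact ⟨0, fun p => by simp⟩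
  · exact ⟨1, fun p => by simpa using conj_pow 1 hζ h5 p⟩
  · refine ⟨3, fun p => ?_⟩
    have := conj_pow 3 hζ h5 p
    rw [show ζ ^ 2 ^ 3 = ζ ^ 3 by
      rw [show 2 ^ 3 = 5 + 3 from rfl, pow_add, h, one_mul]] at this
    exact this
  · exact ⟨2, fun p => conj_pow 2 hζ h5 p⟩

section hom

variable {K : Type*} [Field K] (φ : k →+* K) (ζ : k)

/-- apply a map to both coordinates -/
def mp (φ : k → K) (p : k × k) : K × K := (φ p.1, φ p.2)

lemma map_pv (p : k × k) : φ (pv ζ p) = pv (φ ζ) (mp φ p) := by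
  simp only [pv, vf, mp, map_mul, map_inv₀, map_sub, map_add, map_pow, map_ofNat, map_one]

lemma map_pw (p : k × k) : φ (pw ζ p) = pw (φ ζ) (mp φ p) := by
  simp only [pw, wf, mp, map_mul, map_inv₀, map_sub, map_add, map_pow, map_ofNat, map_one, map_neg]

lemma map_Hp (p : k × k) : φ (Hp p) = Hp (mp φ p) := by
  simp only [Hp, map_H4, mp, map_pow]

lemma map_Tp (p : k × k) : φ (Tp p) = Tp (mp φ p) := by
  simp only [Tp, map_T6, mp, map_pow]

lemma map_Ph (l m : k) (p : k × k) : mp φ (Ph l m p) = Ph (φ l) (φ m) (mp φ p) := by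
  simp only [Ph, map_FA, map_FB, mp, map_pow, map_mul, map_add, map_sub]

lemma map_Sm (p : k × k) : mp φ (Sm ζ p) = Sm (φ ζ) (mp φ p) := by
  simp only [Sm, mp, map_pow, map_mul, map_add, map_sub, map_inv₀, map_neg]

end hom

section exist

variable [IsAlgClosed k]

open Polynomial in
lemma exists_ratio {c4 c6 : k} (hd : c4 ^ 3 ≠ c6 ^ 2) :
    ∃ t : k, c6 ^ 2 * V4 t 1 ^ 3 = c4 ^ 3 * V6 t 1 ^ 2 := by
  let q : k[X] := C (c6^2) * (X^4 + C 12*X^3 + C 14*X^2 - C 12*X + 1)^3 -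
    C (c4^3) * (-X^6 - C 18*X^5 - C 75*X^4 - C 75*X^2 + C 18*X - 1)^2
  have hq : q.coeff 12 = c6^2 - c4^3 := by
    simp only [q]
    compute_degree
    all_goals norm_num
  have hdeg : q.degree ≠ 0 := by
    intro h
    have h1 : q.natDegree = 0 := natDegree_eq_zero_iff_degree_le_zero.mpr h.le
    have h2 : q.coeff 12 = 0 := coeff_eq_zero_of_natDegree_lt (by rw [h1]; norm_num)
    rw [hq] at h2
    exact hd (sub_eq_zero.mp h2).symm
  obtain ⟨t, ht⟩ := IsAlgClosed.exists_root q hdeg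
  refine ⟨t, ?_⟩
  have h3 : q.eval t = c6 ^ 2 * V4 t 1 ^ 3 - c4 ^ 3 * V6 t 1 ^ 2 := by
    simp only [q, eval_sub, eval_add, eval_mul, eval_pow, eval_X, eval_C, eval_one, eval_neg,
      V4, V6]
    ring
  rw [IsRoot.def, h3] at ht
  exact sub_eq_zero.mp ht

lemma exists_vw (h2 : (2 : k) ≠ 0) (h3 : (3 : k) ≠ 0) (h5 : (5 : k) ≠ 0) {c4 c6 : k}
    (hd : c4 ^ 3 ≠ c6 ^ 2) : ∃ v w : k, V4 v w = c4 ∧ V6 v w = c6 := by
  obtain ⟨t, ht⟩ := exists_ratio hd
  have hab : ¬ (V4 t 1 = 0 ∧ V6 t 1 = 0) := by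
    rintro ⟨ha, hb⟩
    have h := V4_disc t 1
    rw [ha, hb] at h
    have h1728 : (1728 : k) ≠ 0 := by
      have : (1728 : k) = 2^6 * 3^3 := by norm_num
      rw [this]; exact mul_ne_zero (pow_ne_zero _ h2) (pow_ne_zero _ h3)
    have h' : (1728 : k) * (t^5 * (1 - 11*t - t^2)) = 0 := by linear_combination -h
    rcases mul_eq_zero.mp ((mul_eq_zero.mp h').resolve_left h1728) with h0 | h0
    · have ht0 : t = 0 := pow_eq_zero_iff (by norm_num) |>.mp h0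
      rw [ht0] at ha
      unfold V4 at ha
      apply one_ne_zero (α := k)
      linear_combination ha
    · have ht2 : (5 : k) * t^2 = 0 := by
        unfold V4 at ha
        linear_combination ha + (t^2 + t - 1) * h0
      have ht0 : t = 0 := pow_eq_zero_iff (by norm_num) |>.mp ((mul_eq_zero.mp ht2).resolve_left h5)
      rw [ht0] at h0
      apply one_ne_zero (α := k)
      linear_combination h0
  have hs4 : ∀ u : k, V4 (u * t) u = u^4 * V4 t 1 := by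
    intro u; unfold V4; ring
  have hs6 : ∀ u : k, V6 (u * t) u = u^6 * V6 t 1 := by
    intro u; unfold V6; ring
  by_cases h4 : c4 = 0
  · have h6 : c6 ≠ 0 := by
      rintro rfl
      exact hd (by rw [h4]; ring)
    have ha : V4 t 1 = 0 := by
      rw [h4] at ht
      have : c6^2 * V4 t 1 ^ 3 = 0 := by rw [ht]; ring
      exact pow_eq_zero_iff (by norm_num) |>.mp ((mul_eq_zero.mp this).resolve_left
        (pow_ne_zero _ h6))
    have hb : V6 t 1 ≠ 0 := fun h => hab ⟨ha, h⟩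
    obtain ⟨u, hu⟩ := IsAlgClosed.exists_pow_nat_eq (c6 / V6 t 1) (n := 6) (by norm_num)
    refine ⟨u * t, u, ?_, ?_⟩
    · rw [hs4, ha, mul_zero, h4]
    · rw [hs6, hu, div_mul_cancel₀ _ hb]
  · by_cases h6 : c6 = 0
    · have hb : V6 t 1 = 0 := by
        rw [h6] at ht
        have : c4^3 * V6 t 1 ^ 2 = 0 := by rw [← ht]; ring
        exact pow_eq_zero_iff (by norm_num) |>.mp ((mul_eq_zero.mp this).resolve_left
          (pow_ne_zero _ h4))
      have ha : V4 t 1 ≠ 0 := fun h => hab ⟨h, hb⟩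
      obtain ⟨u, hu⟩ := IsAlgClosed.exists_pow_nat_eq (c4 / V4 t 1) (n := 4) (by norm_num)
      refine ⟨u * t, u, ?_, ?_⟩
      · rw [hs4, hu, div_mul_cancel₀ _ ha]
      · rw [hs6, hb, mul_zero, h6]
    · have ha : V4 t 1 ≠ 0 := by
        intro ha
        apply hab
        refine ⟨ha, ?_⟩
        rw [ha] at ht
        have : c4^3 * V6 t 1 ^ 2 = 0 := by rw [← ht]; ring
        exact pow_eq_zero_iff (by norm_num) |>.mp ((mul_eq_zero.mp this).resolve_left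
          (pow_ne_zero _ h4))
      have hb : V6 t 1 ≠ 0 := by
        intro hb
        rw [hb] at ht
        have : c6^2 * V4 t 1 ^ 3 = 0 := by rw [ht]; ring
        exact ha (pow_eq_zero_iff (by norm_num) |>.mp ((mul_eq_zero.mp this).resolve_left
          (pow_ne_zero _ h6)))
      obtain ⟨u, hu⟩ := IsAlgClosed.exists_pow_nat_eq (c6 * V4 t 1 / (V6 t 1 * c4)) (n := 2)
        (by norm_num)
      generalize V4 t 1 = a at *
      generalize V6 t 1 = b at *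
      have hu' : u^2 * (b * c4) = c6 * a := by rw [hu]; field_simp
      have e4 : u^4 * a = c4 := by
        have hne : b^2 * c4^2 * a^2 ≠ 0 := mul_ne_zero (mul_ne_zero (pow_ne_zero _ hb)
          (pow_ne_zero _ h4)) (pow_ne_zero _ ha)
        apply mul_left_cancel₀ hne
        linear_combination (u^2 * (b * c4) + c6 * a) * a^3 * hu' + a^2 * ht
      refine ⟨u * t, u, ?_, ?_⟩
      · rw [hs4, e4]
      · rw [hs6]
        have hne : c4 * a ≠ 0 := mul_ne_zero h4 ha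
        apply mul_left_cancel₀ hne
        linear_combination (u^4 * a) * hu' + c6 * a * e4

/-- Existence of the icosahedral parameter. -/
theorem exists_param {ζ : k} (hζ : ζ^4 + ζ^3 + ζ^2 + ζ + 1 = 0) (h2 : (2 : k) ≠ 0)
    (h3 : (3 : k) ≠ 0) (h5 : (5 : k) ≠ 0) {c4 c6 : k}
    (hd : c4 ^ 3 ≠ c6 ^ 2) : ∃ p : k × k, Hp p = c4 ∧ Tp p = c6 := by
  obtain ⟨v, w, h4, h6⟩ := exists_vw h2 h3 h5 hd
  have hg := g_rel hζ
  have hc2 := c_rel hζ
  have hcn := c_ne hζ h5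
  obtain ⟨x, hx⟩ := IsAlgClosed.exists_pow_nat_eq
    (-(((ζ+ζ^4)+2)*v - (2*(ζ+ζ^4)-1)*w) / (5 * (ζ^2 - ζ^3))) (n := 5) (by norm_num)
  obtain ⟨y, hy⟩ := IsAlgClosed.exists_pow_nat_eq
    (((2*(ζ+ζ^4)-1)*v + ((ζ+ζ^4)+2)*w) / (5 * (ζ^2 - ζ^3))) (n := 5) (by norm_num)
  have hv : pv ζ (x, y) = v := by
    simp only [pv, vf, hx, hy]
    generalize ζ+ζ^4 = g at *
    generalize ζ^2-ζ^3 = c at *
    field_simp
    linear_combination (-5 * v) * hg + (-5 * v) * hc2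
  have hw : pw ζ (x, y) = w := by
    simp only [pw, wf, hx, hy]
    generalize ζ+ζ^4 = g at *
    generalize ζ^2-ζ^3 = c at *
    field_simp
    linear_combination (-5 * w) * hg + (-5 * w) * hc2
  refine ⟨(x, y), ?_, ?_⟩
  · rw [← V4_p hζ h5, hv, hw, h4]
  · rw [← V6_p hζ h5, hv, hw, h6]

end exist

end Fermat.Agent.Icosa
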