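import Mathlib

set_option autoImplicit false

/-!
# Icosahedral forms and the Hesse polynomials for `n = 5`

Notation: `X = x⁵`, `Y = y⁵`; `H4 X Y` and `T6 X Y` are Klein's invariants of degree 20 and 30.
-/

namespace Fermat.Agent.Icosa

variable {R : Type*} [CommRing R]

/-- Klein's invariant of degree 20 in terms of `X = x⁵`, `Y = y⁵`. -/
def H4 (X Y : R) : R := X^4 - 228*X^3*Y + 494*X^2*Y^2 + 228*X*Y^3 + Y^4

/-- Klein's invariant of degree 30 in terms of `X = x⁵`, `Y = y⁵` (with a sign). -/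
def T6 (X Y : R) : R :=
  -(X^6 + Y^6 + 522*(X^5*Y - X*Y^5) - 10005*(X^4*Y^2 + X^2*Y^4))

/-- the quadratic factor of Klein's form of degree 12. -/
def Q2 (X Y : R) : R := X^2 + 11*X*Y - Y^2

/-- `f_y = x * FA`. -/
def FA (X Y : R) : R := X^2 + 66*X*Y - 11*Y^2

/-- `f_x = y * FB`. -/
def FB (X Y : R) : R := 11*X^2 + 66*X*Y - Y^2

/-- The polynomial `D` with discriminant `Δ D⁵`. -/
def DD (c4 c6 l m : R) : R :=
    (1)*l^12 +
    (-66*c4)*l^10*m^2 +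
    (440*c6)*l^9*m^3 +
    (-1485*c4^2)*l^8*m^4 +
    (3168*c4*c6)*l^7*m^5 +
    (5940*c4^3 - 10560*c6^2)*l^6*m^6 +
    (4752*c4^2*c6)*l^5*m^7 +
    (-66825*c4^4 + 63360*c4*c6^2)*l^4*m^8 +
    (142560*c4^3*c6 - 140800*c6^3)*l^3*m^9 +
    (-133650*c4^5 + 133056*c4^2*c6^2)*l^2*m^10 +
    (61560*c4^4*c6 - 61440*c4*c6^3)*l*m^11 +
    (91125*c4^6 - 193536*c4^3*c6^2 + 102400*c6^4)*m^12

/-- first derivative of `D` in `l`. -/
def DD1 (c4 c6 l m : R) : R :=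
    (12)*l^11 +
    (-660*c4)*l^9*m^2 +
    (3960*c6)*l^8*m^3 +
    (-11880*c4^2)*l^7*m^4 +
    (22176*c4*c6)*l^6*m^5 +
    (35640*c4^3 - 63360*c6^2)*l^5*m^6 +
    (23760*c4^2*c6)*l^4*m^7 +
    (-267300*c4^4 + 253440*c4*c6^2)*l^3*m^8 +
    (427680*c4^3*c6 - 422400*c6^3)*l^2*m^9 +
    (-267300*c4^5 + 266112*c4^2*c6^2)*l*m^10 +
    (61560*c4^4*c6 - 61440*c4*c6^3)*m^11

/-- second derivative of `D` in `l`. -/
def DD2 (c4 c6 l m : R) : R :=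
    (132)*l^10 +
    (-5940*c4)*l^8*m^2 +
    (31680*c6)*l^7*m^3 +
    (-83160*c4^2)*l^6*m^4 +
    (133056*c4*c6)*l^5*m^5 +
    (178200*c4^3 - 316800*c6^2)*l^4*m^6 +
    (95040*c4^2*c6)*l^3*m^7 +
    (-801900*c4^4 + 760320*c4*c6^2)*l^2*m^8 +
    (855360*c4^3*c6 - 844800*c6^3)*l*m^9 +
    (-267300*c4^5 + 266112*c4^2*c6^2)*m^10

/-- `c₄` of the member `(l : m)` of the family (part 0) -/
def CC4_0 (c4 c6 l m : R) : R :=
    (c4)*l^20 +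
    (-20*c6)*l^19*m +
    (190*c4^2)*l^18*m^2 +
    (-1140*c4*c6)*l^17*m^3 +
    (-855*c4^3 + 5700*c6^2)*l^16*m^4 +
    (-15504*c4^2*c6)*l^15*m^5 +
    (102600*c4^4 - 63840*c4*c6^2)*l^14*m^6

/-- `c₄` of the member `(l : m)` of the family (part 1) -/
def CC4_1 (c4 c6 l m : R) : R :=
    (-259920*c4^3*c6 + 182400*c6^3)*l^13*m^7 +
    (-1000350*c4^5 + 1126320*c4^2*c6^2)*l^12*m^8 +
    (7736040*c4^4*c6 - 7904000*c4*c6^3)*l^11*m^9 +
    (-10003500*c4^6 - 5619744*c4^3*c6^2 + 15808000*c6^4)*l^10*m^10 +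
    (54685800*c4^5*c6 - 54853760*c4^2*c6^3)*l^9*m^11 +
    (-45015750*c4^7 + 7202520*c4^4*c6^2 + 37939200*c4*c6^4)*l^8*m^12 +
    (35089200*c4^6*c6 + 23201280*c4^3*c6^3 - 58368000*c6^5)*l^7*m^13

/-- `c₄` of the member `(l : m)` of the family (part 2) -/
def CC4_2 (c4 c6 l m : R) : R :=
    (207765000*c4^8 - 495188640*c4^5*c6^2 + 287462400*c4^2*c6^4)*l^6*m^14 +
    (-415530000*c4^7*c6 + 882458496*c4^4*c6^3 - 466944000*c4*c6^5)*l^5*m^15 +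
    (-77911875*c4^9 + 714711600*c4^6*c6^2 - 1220474880*c4^3*c6^4 + 583680000*c6^6)*l^4*m^16 +
    (-353200500*c4^8*c6 + 715080960*c4^5*c6^3 - 361881600*c4^2*c6^5)*l^3*m^17 +
    (779118750*c4^10 - 2182917600*c4^7*c6^2 + 2026391040*c4^4*c6^4 - 622592000*c4*c6^6)*l^2*m^18 +
    (-694372500*c4^9*c6 + 2044414080*c4^6*c6^3 - 2005401600*c4^3*c6^5 + 655360000*c6^7)*l*m^19 +
    (184528125*c4^11 - 549301500*c4^8*c6^2 + 544997376*c4^5*c6^4 - 180224000*c4^2*c6^6)*m^20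

/-- `c₄` of the member `(l : m)` of the family -/
def CC4 (c4 c6 l m : R) : R :=
    CC4_0 c4 c6 l m + CC4_1 c4 c6 l m + CC4_2 c4 c6 l m

/-- `c₆` of the member `(l : m)` of the family (part 0) -/
def CC6_0 (c4 c6 l m : R) : R :=
    (c6)*l^30 +
    (-30*c4^2)*l^29*m +
    (435*c4*c6)*l^28*m^2 +
    (-1160*c4^3 - 2900*c6^2)*l^27*m^3 +
    (27405*c4^2*c6)*l^26*m^4 +
    (-95526*c4^4 - 46980*c4*c6^2)*l^25*m^5 +
    (437175*c4^3*c6 + 156600*c6^3)*l^24*m^6 +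
    (1879200*c4^5 - 3915000*c4^2*c6^2)*l^23*m^7

/-- `c₆` of the member `(l : m)` of the family (part 1) -/
def CC6_1 (c4 c6 l m : R) : R :=
    (-8554275*c4^4*c6 + 14407200*c4*c6^3)*l^22*m^8 +
    (-24312150*c4^6 + 42021000*c4^3*c6^2 - 32016000*c6^4)*l^21*m^9 +
    (246633255*c4^5*c6 - 216588240*c4^2*c6^3)*l^20*m^10 +
    (-162081000*c4^7 - 1352475900*c4^4*c6^2 + 1459929600*c4*c6^4)*l^19*m^11 +
    (4131714825*c4^6*c6 - 1612005600*c4^3*c6^3 - 2433216000*c6^5)*l^18*m^12 +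
    (-6928962750*c4^8 - 5235216300*c4^5*c6^2 + 12044419200*c4^2*c6^4)*l^17*m^13 +
    (43190534475*c4^7*c6 - 43045111800*c4^4*c6^3)*l^16*m^14 +
    (-79575287760*c4^6*c6^2 + 79420170240*c4^3*c6^4)*l^15*m^15

/-- `c₆` of the member `(l : m)` of the family (part 2) -/
def CC6_2 (c4 c6 l m : R) : R :=
    (-176688550125*c4^8*c6 + 474659611200*c4^5*c6^3 - 297825638400*c4^2*c6^5)*l^14*m^16 +
    (311803323750*c4^10 - 77604382800*c4^7*c6^2 - 935084908800*c4^4*c6^4 + 700766208000*c4*c6^6)*l^13*m^17 +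
    (-1694131392375*c4^9*c6 + 2776512362400*c4^6*c6^3 - 303665356800*c4^3*c6^5 - 778629120000*c6^7)*l^12*m^18 +
    (328214025000*c4^11 + 3481840250100*c4^8*c6^2 - 8100765158400*c4^5*c6^4 + 4290656256000*c4^2*c6^6)*l^11*m^19 +
    (-2874607835625*c4^10*c6 + 2424887357760*c4^7*c6^3 + 3892110842880*c4^4*c6^5 - 3442360320000*c4*c6^7)*l^10*m^20 +
    (2215444668750*c4^12 - 3077188825500*c4^9*c6^2 + 2709129888000*c4^6*c6^4 - 5125838438400*c4^3*c6^6 + 3278438400000*c6^8)*l^9*m^21 +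
    (-1403114956875*c4^11*c6 - 1724509423800*c4^8*c6^3 + 7701051801600*c4^5*c6^5 - 4573421568000*c4^2*c6^7)*l^8*m^22 +
    (-7705894500000*c4^13 + 33414470973000*c4^10*c6^2 - 49888700928000*c4^7*c6^4 + 30337884979200*c4^4*c6^6 - 6157762560000*c4*c6^8)*l^7*m^23

/-- `c₆` of the member `(l : m)` of the family (part 3) -/
def CC6_3 (c4 c6 l m : R) : R :=
    (5089101159375*c4^12*c6 - 22687218914400*c4^9*c6^3 + 35246094796800*c4^6*c6^5 - 22779445248000*c4^3*c6^7 + 5131468800000*c6^9)*l^6*m^24 +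
    (17627233668750*c4^14 - 70097953635000*c4^11*c6^2 + 105528606261120*c4^8*c6^4 - 71274600677376*c4^5*c6^6 + 18216714240000*c4^2*c6^8)*l^5*m^25 +
    (-40985726371875*c4^13*c6 + 163672057566000*c4^10*c6^3 - 245438120632320*c4^7*c6^5 + 163803539865600*c4^4*c6^7 - 41051750400000*c4*c6^9)*l^4*m^26 +
    (9632368125000*c4^15 - 8104032382500*c4^12*c6^2 - 63806176396800*c4^9*c6^4 + 143803576074240*c4^6*c6^6 - 111934439424000*c4^3*c6^8 + 30408704000000*c6^10)*l^3*m^27 +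
    (-21432019078125*c4^14*c6 + 85719228804000*c4^11*c6^3 - 128580522647040*c4^8*c6^5 + 85731449241600*c4^5*c6^7 - 21438136320000*c4^2*c6^9)*l^2*m^28 +
    (11210083593750*c4^16 - 49873523512500*c4^13*c6^2 + 87394892457600*c4^10*c6^4 - 75042714746880*c4^7*c6^6 + 31344427008000*c4^4*c6^8 - 5033164800000*c4*c6^10)*l*m^29 +
    (-4110363984375*c4^15*c6 + 19796866155000*c4^12*c6^3 - 38083944628224*c4^9*c6^5 + 36574189977600*c4^6*c6^7 - 17532190720000*c4^3*c6^9 + 3355443200000*c6^11)*m^30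

/-- `c₆` of the member `(l : m)` of the family -/
def CC6 (c4 c6 l m : R) : R :=
    CC6_0 c4 c6 l m + CC6_1 c4 c6 l m + CC6_2 c4 c6 l m + CC6_3 c4 c6 l m

lemma H4_T6 (X Y : R) : H4 X Y ^ 3 - T6 X Y ^ 2 = -1728 * X * Y * Q2 X Y ^ 5 := by
  unfold H4 T6 Q2; ring

set_option maxHeartbeats 4000000 in
lemma DD_cov (X Y l m : R) :
    (l + m * FA X Y) * (l - m * FB X Y) *
      Q2 (X * (l + m * FA X Y) ^ 5) (Y * (l - m * FB X Y) ^ 5) =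
      Q2 X Y * DD (H4 X Y) (T6 X Y) l m := by
  unfold DD Q2 FA FB H4 T6; ring

set_option maxHeartbeats 4000000 in
lemma DD1_cov (X Y l m : R) :
    X^2*(11*(l + m * FA X Y)^10*(l - m * FB X Y) + (l + m * FA X Y)^11) +
    66*X*Y*((l + m * FA X Y)^5*(l - m * FB X Y)^6 + (l + m * FA X Y)^6*(l - m * FB X Y)^5) -
    Y^2*((l - m * FB X Y)^11 + 11*(l + m * FA X Y)*(l - m * FB X Y)^10) =
      Q2 X Y * DD1 (H4 X Y) (T6 X Y) l m := by
  unfold DD1 Q2 FA FB H4 T6; ring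

set_option maxHeartbeats 4000000 in
lemma DD2_cov (X Y l m : R) :
    X^2*(110*(l + m * FA X Y)^9*(l - m * FB X Y) + 22*(l + m * FA X Y)^10) +
    66*X*Y*(5*(l + m * FA X Y)^4*(l - m * FB X Y)^6 + 12*(l + m * FA X Y)^5*(l - m * FB X Y)^5 +
      5*(l + m * FA X Y)^6*(l - m * FB X Y)^4) -
    Y^2*(22*(l - m * FB X Y)^10 + 110*(l + m * FA X Y)*(l - m * FB X Y)^9) =
      Q2 X Y * DD2 (H4 X Y) (T6 X Y) l m := by
  unfold DD2 Q2 FA FB H4 T6; ring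

set_option maxHeartbeats 4000000 in
lemma CC4_hess (c4 c6 l m : R) :
    -17424 * m^2 * CC4 c4 c6 l m =
      132 * DD c4 c6 l m * DD2 c4 c6 l m - 121 * DD1 c4 c6 l m ^ 2 := by
  unfold CC4 CC4_0 CC4_1 CC4_2 DD DD1 DD2; ring

lemma hess_uw (X Y u w : R) :
    -121 * (u - w)^2 * H4 (X*u^5) (Y*w^5) =
      132 * (u * w * Q2 (X*u^5) (Y*w^5)) *
        (X^2*(110*u^9*w + 22*u^10) + 66*X*Y*(5*u^4*w^6 + 12*u^5*w^5 + 5*u^6*w^4) -
          Y^2*(22*w^10 + 110*u*w^9)) -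
      121 * (X^2*(11*u^10*w + u^11) + 66*X*Y*(u^5*w^6 + u^6*w^5) - Y^2*(w^11 + 11*u*w^10))^2 := by
  unfold H4 Q2; ring

end Fermat.Agent.Icosa
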