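import Fermat.Agent.Icosa.Exist
import Fermat.Agent.Schoof.Relation

set_option autoImplicit false

/-!
# Congruence of traces of Frobenius
-/

open WeierstrassCurve WeierstrassCurve.Affine WeierstrassCurve.Affine.Point
open Fermat.Agent.Schoof

namespace Fermat.Agent.Icosa

lemma coeff_eq {A : Type*} [AddCommGroup A] {π : A →+ A} {R Q : A}
    (hind : ∀ i j : ℤ, i • R + j • Q = 0 → (i : ZMod 5) = 0 ∧ (j : ZMod 5) = 0)
    {i1 j1 i2 j2 : ℤ} (h1 : π R = i1 • R + j1 • Q) (h2 : π Q = i2 • R + j2 • Q) {a q : ℤ}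
    (hch : (2 : ℤ) • (π (π R) - a • π R + q • R) = 0) :
    (a : ZMod 5) * i1 = (i1 ^ 2 + j1 * i2 + q : ℤ) ∧
    (a : ZMod 5) * j1 = (i1 * j1 + j1 * j2 : ℤ) := by
  have e : (2 * (i1 ^ 2 + j1 * i2 - a * i1 + q)) • R + (2 * (i1 * j1 + j1 * j2 - a * j1)) • Q = 0 := by
    rw [← hch, h1, map_add, map_zsmul, map_zsmul, h1, h2]
    module
  obtain ⟨e1, e2⟩ := hind _ _ e
  have h2' : (2 : ZMod 5) ≠ 0 := by decide
  have hp : Fact (Nat.Prime 5) := ⟨by norm_num⟩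
  push_cast at e1 e2 ⊢
  have e1' := (mul_eq_zero.mp e1).resolve_left h2'
  have e2' := (mul_eq_zero.mp e2).resolve_left h2'
  exact ⟨by linear_combination -e1', by linear_combination -e2'⟩

section

variable {F : Type*} [Field F] [Fintype F]

omit [Fintype F] in
lemma cur_elliptic {c4 c6 : F} (h2 : (2 : F) ≠ 0) (h3 : (3 : F) ≠ 0) (hd : c4 ^ 3 ≠ c6 ^ 2) :
    (cur 0 (-27 * c4) (-54 * c6)).IsElliptic := by
  rw [WeierstrassCurve.isElliptic_iff, isUnit_iff_ne_zero]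
  have : (cur 0 (-27 * c4) (-54 * c6)).Δ = 2^6 * 3^9 * (c4 ^ 3 - c6 ^ 2) := by
    simp only [cur, WeierstrassCurve.Δ, WeierstrassCurve.b₂, WeierstrassCurve.b₄,
      WeierstrassCurve.b₆, WeierstrassCurve.b₈]
    ring
  rw [this]
  exact mul_ne_zero (mul_ne_zero (pow_ne_zero _ h2) (pow_ne_zero _ h3)) (sub_ne_zero.mpr hd)

omit [Fintype F] in
lemma sh_cur {K : Type*} [Field K] [Algebra F K] (c4 c6 : F) :
    Sh ((cur 0 (-27 * c4) (-54 * c6))⁄K) (algebraMap F K c4) (algebraMap F K c6) where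
  a1 := by simp [cur]
  a2 := by simp [cur]
  a3 := by simp [cur]
  a4 := by simp [cur, map_ofNat]
  a6 := by simp [cur, map_ofNat]

variable {K : Type*} [Field K] [Algebra F K] [DecidableEq K]

/-- Frobenius as a ring homomorphism -/
noncomputable def fr (F K : Type*) [Field F] [Fintype F] [Field K] [Algebra F K] : K →+* K :=
  (FiniteField.frobeniusAlgHom F K : K →+* K)

omit [DecidableEq K] in
lemma fr_apply (x : K) : fr F K x = x ^ Fintype.card F := rfl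

omit [DecidableEq K] in
lemma fr_algebraMap (x : F) : fr F K (algebraMap F K x) = algebraMap F K x :=
  (FiniteField.frobeniusAlgHom F K).commutes x

lemma at_frob {c4 c6 : F} {ζ : K} {n : ℕ}
    (hn : ∀ p, pv (ζ^(Fintype.card F)) p = pv ζ (sm^[n] p) ∧
      pw (ζ^(Fintype.card F)) p = pw ζ (sm^[n] p))
    {p : K × K} {R : ((cur 0 (-27 * c4) (-54 * c6))⁄K).Point}
    (hR : At ((cur 0 (-27 * c4) (-54 * c6))⁄K) ζ p R) :
    At ((cur 0 (-27 * c4) (-54 * c6))⁄K) ζ (sm^[n] (mp (fr F K) p))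
      (frob 0 (-27 * c4) (-54 * c6) K R) := by
  obtain ⟨h, rfl⟩ := hR
  have e1 : Xc (pv ζ (sm^[n] (mp (fr F K) p))) (pw ζ (sm^[n] (mp (fr F K) p))) =
      fr F K (Xc (pv ζ p) (pw ζ p)) := by
    rw [← (hn _).1, ← (hn _).2, ← fr_apply (F := F), ← map_pv, ← map_pw]
    simp only [Xc, map_mul, map_add, map_sub, map_pow, map_ofNat]
  have e2 : Yc (pv ζ (sm^[n] (mp (fr F K) p))) (pw ζ (sm^[n] (mp (fr F K) p))) =
      fr F K (Yc (pv ζ p) (pw ζ p)) := by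
    rw [← (hn _).1, ← (hn _).2, ← fr_apply (F := F), ← map_pv, ← map_pw]
    simp only [Yc, map_mul, map_neg, map_pow, map_ofNat]
  rw [frob, Point.map_some]
  refine ⟨?_, ?_⟩
  · rw [e1, e2]
    exact (baseChange_nonsingular _ (FiniteField.frobeniusAlgHom F K).toRingHom.injective _ _).mpr h
  · rw [some.injEq]
    exact ⟨e1.symm, e2.symm⟩

end

section

variable {F : Type*} [Field F] [Fintype F]

/-- Congruence modulo 5 of the traces of Frobenius in the family. -/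
theorem tr_congr (h2 : (2 : F) ≠ 0) (h3 : (3 : F) ≠ 0) (h5 : (5 : F) ≠ 0)
    (hq : ¬ 5 ∣ Fintype.card F) {c4 c6 l m : F} (hd : c4 ^ 3 ≠ c6 ^ 2)
    (hd' : CC4 c4 c6 l m ^ 3 ≠ CC6 c4 c6 l m ^ 2) :
    (5 : ℤ) ∣ (tr 0 (-27 * CC4 c4 c6 l m) (-54 * CC6 c4 c6 l m) - tr 0 (-27 * c4) (-54 * c6)) := by
  classical
  let K := AlgebraicClosure F
  let A := algebraMap F K
  have hA : Function.Injective A := A.injective
  have k2 : (2 : K) ≠ 0 := by
    intro h; apply h2; apply hA; rw [map_ofNat, h, _root_.map_zero]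
  have k3 : (3 : K) ≠ 0 := by
    intro h; apply h3; apply hA; rw [map_ofNat, h, _root_.map_zero]
  have k5 : (5 : K) ≠ 0 := by
    intro h; apply h5; apply hA; rw [map_ofNat, h, _root_.map_zero]
  obtain ⟨ζ, hζ⟩ : ∃ ζ : K, ζ^4 + ζ^3 + ζ^2 + ζ + 1 = 0 := by
    open Polynomial in
    obtain ⟨ζ, hζ⟩ := IsAlgClosed.exists_root (X^4 + X^3 + X^2 + X + 1 : K[X]) (by
      have : (X^4 + X^3 + X^2 + X + 1 : K[X]).degree = 4 := by compute_degree!
      rw [this]; norm_num)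
    exact ⟨ζ, by simpa using hζ⟩
  have kd : (A c4) ^ 3 ≠ (A c6) ^ 2 := by
    rw [← map_pow, ← map_pow]
    exact fun h => hd (hA h)
  have kd' : CC4 (A c4) (A c6) (A l) (A m) ^ 3 ≠ CC6 (A c4) (A c6) (A l) (A m) ^ 2 := by
    rw [← map_CC4, ← map_CC6, ← map_pow, ← map_pow]
    exact fun h => hd' (hA h)
  have hF : ringChar F ≠ 2 := by
    intro h
    apply h2
    have := (CharP.cast_eq_zero F (ringChar F))
    rw [h] at this
    exact_mod_cast this
  have hE := cur_elliptic h2 h3 hd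
  have hE' := cur_elliptic h2 h3 hd'
  obtain ⟨p, hH, hT⟩ := exists_param hζ k2 k3 k5 kd
  obtain ⟨n, hn⟩ := exists_conj hζ k5 (Fintype.card F) hq
  -- curves
  let W := ((cur 0 (-27 * c4) (-54 * c6))⁄K)
  let W' := ((cur 0 (-27 * CC4 c4 c6 l m) (-54 * CC6 c4 c6 l m))⁄K)
  have hW : Sh W (A c4) (A c6) := sh_cur _ _
  have hW' : Sh W' (CC4 (A c4) (A c6) (A l) (A m)) (CC6 (A c4) (A c6) (A l) (A m)) := by
    rw [← map_CC4, ← map_CC6]
    exact sh_cur _ _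
  have gS := good_Sm hζ k5
  have gs := (good_sm (k := K)).iterate n
  have getR : ∀ (u : K × K), Hp u = A c4 → Tp u = A c6 → ∃ R : W.toAffine.Point, At W ζ u R := by
    intro u h4 h6
    exact exists_rep hW k2 k3 (by rw [V4_p hζ k5, h4]) (by rw [V6_p hζ k5, h6]) kd
  have getR' : ∀ (u : K × K), Hp u = A c4 → Tp u = A c6 →
      ∃ R : W'.toAffine.Point, At W' ζ (Ph (A l) (A m) u) R := by
    intro u h4 h6
    exact exists_rep hW' k2 k3 (by rw [V4_p hζ k5, Hp_Ph, h4, h6])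
      (by rw [V6_p hζ k5, Tp_Ph, h4, h6]) kd'
  obtain ⟨R, hR⟩ := getR p hH hT
  obtain ⟨Q, hQ⟩ := getR (Sm ζ p) (by rw [gS.H, hH]) (by rw [gS.T, hT])
  obtain ⟨R', hR'⟩ := getR' p hH hT
  obtain ⟨Q', hQ'⟩ := getR' (Sm ζ p) (by rw [gS.H, hH]) (by rw [gS.T, hT])
  have hτH : ∀ u : K × K, Hp u = A c4 → Hp (sm^[n] (mp (fr F K) u)) = A c4 := by
    intro u hu
    rw [gs.H, ← map_Hp, hu, fr_algebraMap]
  have hτT : ∀ u : K × K, Tp u = A c6 → Tp (sm^[n] (mp (fr F K) u)) = A c6 := by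
    intro u hu
    rw [gs.T, ← map_Tp, hu, fr_algebraMap]
  have hτP : ∀ u : K × K, Ph (A l) (A m) (sm^[n] (mp (fr F K) u)) =
      sm^[n] (mp (fr F K) (Ph (A l) (A m) u)) := by
    intro u
    rw [gs.Ph, map_Ph, fr_algebraMap, fr_algebraMap]
  have hQ2 := hQ'
  rw [gS.Ph] at hQ2
  obtain ⟨i1, j1, hne, r1, r1'⟩ := transport hW hζ k2 k3 k5 kd hW' kd' hH hT hR hQ hR' hQ2
    (hτH p hH) (hτT p hT) (at_frob hn hR) (by rw [hτP]; exact at_frob hn hR')
  obtain ⟨i2, j2, -, r2, r2'⟩ := transport hW hζ k2 k3 k5 kd hW' kd' hH hT hR hQ hR' hQ2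
    (hτH _ (by rw [gS.H, hH])) (hτT _ (by rw [gS.T, hT])) (at_frob hn hQ)
    (by rw [hτP]; exact at_frob hn hQ')
  have c1 := coeff_eq (fun i j h => indep hW hζ k2 k3 k5 kd hH hT hR hQ h) r1 r2
    (by rw [← CH_apply]; exact CH_eq_zero hF K R)
  have c2 := coeff_eq (fun i j h => indep hW' hζ k2 k3 k5 kd' (by rw [Hp_Ph, hH, hT])
    (by rw [Tp_Ph, hH, hT]) hR' hQ2 h) r1' r2'
    (by rw [← CH_apply]; exact CH_eq_zero hF K R')
  apply (ZMod.intCast_zmod_eq_zero_iff_dvd _ 5).mp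
  push_cast
  by_contra hne'
  apply hne
  have hp : Fact (Nat.Prime 5) := ⟨by norm_num⟩
  constructor
  · have : ((tr 0 (-27 * CC4 c4 c6 l m) (-54 * CC6 c4 c6 l m) : ZMod 5) -
        tr 0 (-27 * c4) (-54 * c6)) * i1 = 0 := by
      rw [sub_mul, c1.1, c2.1, sub_self]
    exact (mul_eq_zero.mp this).resolve_left hne'
  · have : ((tr 0 (-27 * CC4 c4 c6 l m) (-54 * CC6 c4 c6 l m) : ZMod 5) -
        tr 0 (-27 * c4) (-54 * c6)) * j1 = 0 := by
      rw [sub_mul, c1.2, c2.2, sub_self]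
    exact (mul_eq_zero.mp this).resolve_left hne'

end

end Fermat.Agent.Icosa
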