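import Fermat.Agent.Icosa.Pts

set_option autoImplicit false

/-!
# All points of order 5
-/

open WeierstrassCurve WeierstrassCurve.Affine WeierstrassCurve.Affine.Point

namespace Fermat.Agent.Icosa

variable {k : Type*} [Field k]

/-- maps preserving the invariants and commuting with the covariant -/
structure Good (g : k × k → k × k) : Prop where
  H : ∀ p, Hp (g p) = Hp p
  T : ∀ p, Tp (g p) = Tp p
  Ph : ∀ l m p, Ph l m (g p) = g (Ph l m p)

lemma Good.comp {g h : k × k → k × k} (hg : Good g) (hh : Good h) : Good (g ∘ h) where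
  H p := by rw [Function.comp_apply, hg.H, hh.H]
  T p := by rw [Function.comp_apply, hg.T, hh.T]
  Ph l m p := by rw [Function.comp_apply, hg.Ph, hh.Ph, Function.comp_apply]

lemma Good.id : Good (id : k × k → k × k) where
  H _ := rfl
  T _ := rfl
  Ph _ _ _ := rfl

lemma Good.iterate {g : k × k → k × k} (hg : Good g) (n : ℕ) : Good (g^[n]) := by
  induction n with
  | zero => exact Good.id
  | succ n ih => rw [Function.iterate_succ]; exact ih.comp hg

lemma good_sm : Good (sm : k × k → k × k) := ⟨Hp_sm, Tp_sm, Ph_sm⟩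

lemma good_Sm {ζ : k} (hζ : ζ^4 + ζ^3 + ζ^2 + ζ + 1 = 0) (h5 : (5 : k) ≠ 0) : Good (Sm ζ) :=
  ⟨Hp_S hζ h5, Tp_S hζ h5, Ph_S hζ h5⟩

lemma good_tm {ζ : k} (hζ : ζ^4 + ζ^3 + ζ^2 + ζ + 1 = 0) : Good (tm ζ) :=
  ⟨Hp_tm hζ, Tp_tm hζ, Ph_tm hζ⟩

variable [DecidableEq k]

/-- `R` is the point attached to `p`. -/
def At (W : WeierstrassCurve k) (ζ : k) (p : k × k) (R : W.toAffine.Point) : Prop :=
  Rep W (pv ζ p) (pw ζ p) R

section

variable {W : WeierstrassCurve k} {c4 c6 : k} (hW : Sh W c4 c6) {ζ : k}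
  (hζ : ζ^4 + ζ^3 + ζ^2 + ζ + 1 = 0) (h2 : (2 : k) ≠ 0) (h3 : (3 : k) ≠ 0) (h5 : (5 : k) ≠ 0)
  (hd : c4 ^ 3 ≠ c6 ^ 2)
include hW hζ h2 h3 h5 hd

lemma At.double {p : k × k} (hH : Hp p = c4) (hT : Tp p = c6) {R : W.toAffine.Point}
    (hR : At W ζ p R) : At W ζ (sm p) (R + R) := by
  rw [At, pv_sm, pw_sm]
  exact Rep.double hW h2 h3 (by rw [V4_p hζ h5, hH]) (by rw [V6_p hζ h5, hT]) hd hR

lemma At.sm_iter {p : k × k} (hH : Hp p = c4) (hT : Tp p = c6) {R : W.toAffine.Point}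
    (hR : At W ζ p R) (n : ℕ) : At W ζ (sm^[n] p) ((2 ^ n : ℤ) • R) := by
  induction n with
  | zero => simpa using hR
  | succ n ih =>
    rw [Function.iterate_succ_apply', pow_succ, mul_smul, two_smul, smul_add]
    have hg := (good_sm (k := k)).iterate n
    exact At.double hW hζ h2 h3 h5 hd (by rw [hg.H, hH]) (by rw [hg.T, hT]) ih

lemma At.five {p : k × k} (hH : Hp p = c4) (hT : Tp p = c6) {R : W.toAffine.Point}
    (hR : At W ζ p R) : (5 : ℤ) • R = 0 := by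
  have h := At.sm_iter hW hζ h2 h3 h5 hd hH hT hR 2
  have h' : At W ζ (sm^[2] p) (-R) := by
    have := Rep.neg hW hR
    rw [At]
    simp only [Function.iterate_succ, Function.iterate_zero, Function.comp_apply, id_eq,
      pv_sm, pw_sm]
    exact this
  have e := Rep.unique h h'
  have : (4 : ℤ) • R = -R := by rw [← e]; norm_num
  calc (5 : ℤ) • R = (4 : ℤ) • R + R := by
        rw [show (5 : ℤ) = 4 + 1 by norm_num, add_smul, one_smul]
    _ = 0 := by rw [this]; simp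

lemma At.S_iter {p : k × k} (hH : Hp p = c4) (hT : Tp p = c6) {R Q : W.toAffine.Point}
    (hR : At W ζ p R) (hQ : At W ζ (Sm ζ p) Q) (m : ℕ) :
    At W ζ (Sm ζ ((tm ζ)^[m] p)) ((m : ℤ) • R + Q) := by
  induction m with
  | zero => simpa using hQ
  | succ m ih =>
    have hg := (good_tm (k := k) hζ).iterate m
    rw [Function.iterate_succ_apply']
    have hpv : ∀ m : ℕ, pv ζ ((tm ζ)^[m] p) = pv ζ p ∧ pw ζ ((tm ζ)^[m] p) = pw ζ p := by
      intro m
      induction m with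
      | zero => exact ⟨rfl, rfl⟩
      | succ m ih => rw [Function.iterate_succ_apply', pv_tm hζ, pw_tm hζ]; exact ih
    have hR' : At W ζ ((tm ζ)^[m] p) R := by
      rw [At, (hpv m).1, (hpv m).2]; exact hR
    have := Rep.add_S hW hζ h2 h3 h5 hd (by rw [hg.H, hH]) (by rw [hg.T, hT]) hR' ih
    have e : ((m + 1 : ℕ) : ℤ) • R + Q = R + ((m : ℤ) • R + Q) := by
      push_cast
      rw [add_smul, one_smul]; abel
    rw [e]
    exact this

omit hW hζ h2 h3 h5 hd in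
lemma zsmul_congr {A : Type*} [AddCommGroup A] {R : A} (h : (5 : ℤ) • R = 0) {a b : ℤ}
    (hab : (a : ZMod 5) = b) : a • R = b • R := by
  rw [ZMod.intCast_eq_intCast_iff_dvd_sub] at hab
  obtain ⟨c, hc⟩ := hab
  have : b = a + c * 5 := by push_cast at hc; linarith
  rw [this, add_smul, mul_smul, h, smul_zero, add_zero]

omit hW h2 h3 hd [DecidableEq k] in
lemma pv_inj {u p : k × k} (h1 : pv ζ u = pv ζ p) (h2 : pw ζ u = pw ζ p) :
    u.1 ^ 5 = p.1 ^ 5 ∧ u.2 ^ 5 = p.2 ^ 5 := by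
  have hc : (ζ^2 - ζ^3)⁻¹ ≠ 0 := inv_ne_zero (c_ne hζ h5)
  simp only [pv, vf] at h1
  simp only [pw, wf] at h2
  have e1 := mul_left_cancel₀ hc h1
  have e2 := mul_left_cancel₀ hc h2
  have hg := g_rel hζ
  have hc2 := c_rel hζ
  have hcn := c_ne hζ h5
  generalize ζ + ζ^4 = g at *
  have hne : (5 : k) * (2 - g) ≠ 0 := by
    apply mul_ne_zero h5
    intro h
    apply pow_ne_zero 2 hcn
    rw [hc2]; linear_combination -h
  constructor
  · apply mul_left_cancel₀ hne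
    linear_combination (g + 2) * e1 - (2 * g - 1) * e2 - 5 * (u.1 ^ 5 - p.1 ^ 5) * hg
  · apply mul_left_cancel₀ hne
    linear_combination -(2 * g - 1) * e1 - (g + 2) * e2 - 5 * (u.2 ^ 5 - p.2 ^ 5) * hg

end

/-- The symmetries realising all combinations. -/
lemma exists_good {ζ : k} (hζ : ζ^4 + ζ^3 + ζ^2 + ζ + 1 = 0) (h2 : (2 : k) ≠ 0)
    (h3 : (3 : k) ≠ 0) (h5 : (5 : k) ≠ 0) (i j : ℤ) (hij : ¬ ((i : ZMod 5) = 0 ∧ (j : ZMod 5) = 0)) :
    ∃ g : k × k → k × k, Good g ∧ ∀ (W : WeierstrassCurve k) (c4 c6 : k) (_ : Sh W c4 c6)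
      (_ : c4 ^ 3 ≠ c6 ^ 2) (p : k × k) (_ : Hp p = c4) (_ : Tp p = c6) (R Q : W.toAffine.Point)
      (_ : At W ζ p R) (_ : At W ζ (Sm ζ p) Q), At W ζ (g p) (i • R + j • Q) := by
  by_cases hj : (j : ZMod 5) = 0
  · have hi : (i : ZMod 5) ≠ 0 := fun h => hij ⟨h, hj⟩
    have key : ∀ i : ZMod 5, i ≠ 0 → ∃ n : Fin 4, (2 : ZMod 5) ^ (n : ℕ) = i := by decide
    obtain ⟨n, hn⟩ := key _ hi
    refine ⟨sm^[n], good_sm.iterate n, ?_⟩
    intro W c4 c6 hW hd p hH hT R Q hR hQ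
    have hR5 := At.five hW hζ h2 h3 h5 hd hH hT hR
    have hS := good_Sm hζ h5
    have hQ5 := At.five hW hζ h2 h3 h5 hd (by rw [hS.H, hH]) (by rw [hS.T, hT]) hQ
    have e1 : j • Q = 0 := by
      have : j • Q = (0 : ℤ) • Q := zsmul_congr hQ5 (by rw [hj]; simp)
      rw [this, zero_smul]
    have e2 : i • R = (2 ^ (n : ℕ) : ℤ) • R := zsmul_congr hR5 (by push_cast; exact hn.symm)
    rw [e1, add_zero, e2]
    exact At.sm_iter hW hζ h2 h3 h5 hd hH hT hR n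
  · have key : ∀ i j : ZMod 5, j ≠ 0 → ∃ (n : Fin 4) (m : Fin 5),
        (2 : ZMod 5) ^ (n : ℕ) = j ∧ (2 : ZMod 5) ^ (n : ℕ) * ((m : ℕ) : ZMod 5) = i := by decide
    obtain ⟨n, m, hn, hm⟩ := key i j hj
    refine ⟨sm^[n] ∘ (Sm ζ) ∘ (tm ζ)^[m], (good_sm.iterate n).comp
      ((good_Sm hζ h5).comp ((good_tm hζ).iterate m)), ?_⟩
    intro W c4 c6 hW hd p hH hT R Q hR hQ
    have hR5 := At.five hW hζ h2 h3 h5 hd hH hT hR
    have hS := good_Sm hζ h5
    have hQ5 := At.five hW hζ h2 h3 h5 hd (by rw [hS.H, hH]) (by rw [hS.T, hT]) hQ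
    have h1 := At.S_iter hW hζ h2 h3 h5 hd hH hT hR hQ m
    have hg := (good_Sm hζ h5).comp ((good_tm hζ).iterate m)
    have h2 := At.sm_iter hW hζ h2 h3 h5 hd (p := Sm ζ ((tm ζ)^[m] p))
      (by have := hg.H p; rw [Function.comp_apply] at this; rw [this, hH])
      (by have := hg.T p; rw [Function.comp_apply] at this; rw [this, hT]) h1 n
    have e1 : j • Q = (2 ^ (n : ℕ) : ℤ) • Q := zsmul_congr hQ5 (by push_cast; exact hn.symm)
    have e2 : i • R = (2 ^ (n : ℕ) * ((m : ℕ) : ℤ) : ℤ) • R :=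
      zsmul_congr hR5 (by push_cast; exact hm.symm)
    rw [e1, e2, mul_smul, ← smul_add]
    exact h2

end Fermat.Agent.Icosa
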