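import Fermat.Agent.Icosa.Cov

set_option autoImplicit false

/-!
# Explicit identities for the icosahedral parametrisation of points of order 5
-/

namespace Fermat.Agent.Icosa

section ring

variable {R : Type*} [CommRing R]

/-- `c₄` of Tate's curve with a point of order 5. -/
def V4 (v w : R) : R := v^4 + 12*v^3*w + 14*v^2*w^2 - 12*v*w^3 + w^4

/-- `c₆` of Tate's curve with a point of order 5. -/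
def V6 (v w : R) : R := -v^6 - 18*v^5*w - 75*v^4*w^2 - 75*v^2*w^4 + 18*v*w^5 - w^6

/-- first modular form after applying `S`. -/
def v2 (x y : R) : R := -x^5 + 3*x^4*y - 4*x^3*y^2 + 2*x^2*y^3 - x*y^4

/-- second modular form after applying `S`. -/
def w2 (x y : R) : R := -x^4*y - 2*x^3*y^2 - 4*x^2*y^3 - 3*x*y^4 - y^5

/-- `v3` -/
def v3 (ζ x y : R) : R := -x^5 + 3*ζ*x^4*y - 4*ζ^2*x^3*y^2 + 2*ζ^3*x^2*y^3 - ζ^4*x*y^4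

/-- `w3` -/
def w3 (ζ x y : R) : R := -ζ*x^4*y - 2*ζ^2*x^3*y^2 - 4*ζ^3*x^2*y^3 - 3*ζ^4*x*y^4 - y^5

/-- `5 v` -/
def A1 (ζ x y : R) : R := (-4 - 8*ζ - 7*ζ^2 - ζ^3)*x^5 + (3 + 6*ζ - ζ^2 + 7*ζ^3)*y^5

/-- `5 w` -/
def B1 (ζ x y : R) : R := (3 + 6*ζ - ζ^2 + 7*ζ^3)*x^5 + (4 + 8*ζ + 7*ζ^2 + ζ^3)*y^5

/-- `25` times the slope. -/
def M1 (ζ x y : R) : R := 9*(A1 ζ x y + 5*v2 x y - 5*v3 ζ x y) - 3*(B1 ζ x y + 5*w2 x y - 5*w3 ζ x y)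

/-- `25` times the difference of the abscissas. -/
def U1 (ζ x y : R) : R :=
  3*((A1 ζ x y)^2 - 6*(A1 ζ x y)*(B1 ζ x y) + (B1 ζ x y)^2) -
    75*((v2 x y)^2 - 6*(v2 x y)*(w2 x y) + (w2 x y)^2)

lemma V4_disc (v w : R) : V4 v w ^ 3 - V6 v w ^ 2 = 1728 * v^5 * w^5 * (w^2 - 11*v*w - v^2) := by
  unfold V4 V6; ring

lemma V4_v2 (x y : R) : V4 (v2 x y) (w2 x y) = H4 (x^5) (y^5) := by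
  unfold V4 v2 w2 H4; ring

lemma V6_v2 (x y : R) : V6 (v2 x y) (w2 x y) = T6 (x^5) (y^5) := by
  unfold V6 v2 w2 T6; ring

variable {g : R} (hg : g^2 + g - 1 = 0)
include hg

lemma id_V4 (x y : R) : V4 ((g+2)*x - (2*g-1)*y) (-((g+2)*y + (2*g-1)*x)) =
    (g - 2)^2 * H4 x y := by
  unfold V4 H4
  linear_combination ((145*g^2 - 85*g - 141)*x^4 +
    (-60*g^2 + 1380*g - 852)*x^3*y +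
    (-370*g^2 + 10*g + 2346)*x^2*y^2 +
    (60*g^2 - 1380*g + 852)*x*y^3 +
    (145*g^2 - 85*g - 141)*y^4) * hg

lemma id_V6 (x y : R) : V6 ((g+2)*x - (2*g-1)*y) (-((g+2)*y + (2*g-1)*x)) =
    (g - 2)^3 * T6 x y := by
  unfold V6 T6
  linear_combination ((-2105*g^4 - 1585*g^3 + 5*g^2 - 1589*g + 2113)*x^6 +
    (3690*g^4 - 17370*g^3 + 2610*g^2 - 19458*g + 486)*x^5*y +
    (525*g^4 + 17925*g^3 - 50025*g^2 + 57945*g - 80565)*x^4*y^2 +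
    (525*g^4 + 17925*g^3 - 50025*g^2 + 57945*g - 80565)*x^2*y^4 +
    (-3690*g^4 + 17370*g^3 - 2610*g^2 + 19458*g - 486)*x*y^5 +
    (-2105*g^4 - 1585*g^3 + 5*g^2 - 1589*g + 2113)*y^6) * hg

lemma id_S1 (x y : R) : (g+2)*(x - g*y)^5 - (2*g-1)*(-(g*x+y))^5 = (g-2)^3 * v2 x y := by
  unfold v2
  linear_combination ((2*g^4 - 3*g^3 + 5*g^2 - 7*g + 6)*x^5 +
    (10*g^3 - 15*g^2 + 22*g - 24)*x^4*y +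
    (20*g^2 - 16*g + 32)*x^3*y^2 +
    (-10*g^2 + 8*g - 16)*x^2*y^3 +
    (5*g^3 + 5*g^2 + g + 8)*x*y^4 +
    (-g^4 - g^3 - g + 1)*y^5) * hg

lemma id_S2 (x y : R) : -((g+2)*(-(g*x+y))^5 + (2*g-1)*(x - g*y)^5) = (g-2)^3 * w2 x y := by
  unfold w2
  linear_combination ((g^4 + g^3 + g - 1)*x^5 +
    (5*g^3 + 5*g^2 + g + 8)*x^4*y +
    (10*g^2 - 8*g + 16)*x^3*y^2 +
    (20*g^2 - 16*g + 32)*x^2*y^3 +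
    (-10*g^3 + 15*g^2 - 22*g + 24)*x*y^4 +
    (2*g^4 - 3*g^3 + 5*g^2 - 7*g + 6)*y^5) * hg

lemma id_fx (x y : R) : (-(g*x+y)) * FB ((x - g*y)^5) ((-(g*x+y))^5) =
    (2-g)^5 * (y * FB (x^5) (y^5) - g * (x * FA (x^5) (y^5))) := by
  unfold FA FB
  linear_combination ((g^9 - g^8 + 2*g^7 - 3*g^6 + 5*g^5 + 57*g^4 - 42*g^3 + 59*g^2 - 21*g)*x^11 +
    (11*g^8 - 11*g^7 + 22*g^6 - 363*g^5 + 385*g^4 - 341*g^3 + 616*g^2 - 517*g + 363)*x^10*y +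
    (55*g^7 + 605*g^6 - 550*g^5 - 825*g^4 + 275*g^3 - 110*g^2 - 110*g)*x^9*y^2 +
    (-660*g^7 + 825*g^6 + 2475*g^5 - 1650*g^4 - 825*g^3 + 495*g^2)*x^8*y^3 +
    (330*g^8 - 330*g^7 - 3300*g^6 + 3300*g^5 + 3300*g^4 - 2310*g^3 - 990*g^2)*x^7*y^4 +
    (-66*g^9 + 66*g^8 + 1848*g^7 - 1782*g^6 - 6270*g^5 + 7656*g^4 - 66*g^3 + 2772*g^2 - 2508*g)*x^6*y^5 +
    (-396*g^8 + 396*g^7 + 4158*g^6 - 6072*g^5 - 2970*g^4 + 198*g^3 + 6072*g^2 - 3234*g + 2046)*x^5*y^6 +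
    (-990*g^7 + 2310*g^6 + 3300*g^5 - 3300*g^4 - 3300*g^3 + 330*g^2 + 330*g)*x^4*y^7 +
    (-495*g^7 - 825*g^6 + 1650*g^5 + 2475*g^4 - 825*g^3 - 660*g^2)*x^3*y^8 +
    (110*g^8 - 110*g^7 - 275*g^6 - 825*g^5 + 550*g^4 + 605*g^3 - 55*g^2)*x^2*y^9 +
    (-11*g^9 + 11*g^8 + 88*g^7 - 77*g^6 + 165*g^5 - 627*g^4 + 682*g^3 - 539*g^2 + 341*g)*x*y^10 +
    (-11*g^8 + 11*g^7 - 22*g^6 + 33*g^5 - 55*g^4 + 21*g^3 - 66*g^2 + 47*g - 33)*y^11) * hg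

lemma id_fy (x y : R) : (x - g*y) * FA ((x - g*y)^5) ((-(g*x+y))^5) =
    -(2-g)^5 * (x * FA (x^5) (y^5) + g * (y * FB (x^5) (y^5))) := by
  unfold FA FB
  linear_combination ((-11*g^8 + 11*g^7 - 22*g^6 + 33*g^5 - 55*g^4 + 21*g^3 - 66*g^2 + 47*g - 33)*x^11 +
    (11*g^9 - 11*g^8 - 88*g^7 + 77*g^6 - 165*g^5 + 627*g^4 - 682*g^3 + 539*g^2 - 341*g)*x^10*y +
    (110*g^8 - 110*g^7 - 275*g^6 - 825*g^5 + 550*g^4 + 605*g^3 - 55*g^2)*x^9*y^2 +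
    (495*g^7 + 825*g^6 - 1650*g^5 - 2475*g^4 + 825*g^3 + 660*g^2)*x^8*y^3 +
    (-990*g^7 + 2310*g^6 + 3300*g^5 - 3300*g^4 - 3300*g^3 + 330*g^2 + 330*g)*x^7*y^4 +
    (396*g^8 - 396*g^7 - 4158*g^6 + 6072*g^5 + 2970*g^4 - 198*g^3 - 6072*g^2 + 3234*g - 2046)*x^6*y^5 +
    (-66*g^9 + 66*g^8 + 1848*g^7 - 1782*g^6 - 6270*g^5 + 7656*g^4 - 66*g^3 + 2772*g^2 - 2508*g)*x^5*y^6 +
    (-330*g^8 + 330*g^7 + 3300*g^6 - 3300*g^5 - 3300*g^4 + 2310*g^3 + 990*g^2)*x^4*y^7 +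
    (-660*g^7 + 825*g^6 + 2475*g^5 - 1650*g^4 - 825*g^3 + 495*g^2)*x^3*y^8 +
    (-55*g^7 - 605*g^6 + 550*g^5 + 825*g^4 - 275*g^3 + 110*g^2 + 110*g)*x^2*y^9 +
    (11*g^8 - 11*g^7 + 22*g^6 - 363*g^5 + 385*g^4 - 341*g^3 + 616*g^2 - 517*g + 363)*x*y^10 +
    (-g^9 + g^8 - 2*g^7 + 3*g^6 - 5*g^5 - 57*g^4 + 42*g^3 - 59*g^2 + 21*g)*y^11) * hg

end ring

section zeta

variable {R : Type*} [CommRing R] {ζ : R} (hζ : ζ^4 + ζ^3 + ζ^2 + ζ + 1 = 0)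
include hζ

lemma zeta_pow : ζ^5 = 1 := by linear_combination (ζ - 1) * hζ

lemma g_rel : (ζ + ζ^4)^2 + (ζ + ζ^4) - 1 = 0 := by
  linear_combination ((ζ^4 - ζ^3 + 2*ζ - 1)) * hζ

lemma c_rel : (ζ^2 - ζ^3)^2 = (ζ + ζ^4) - 2 := by
  linear_combination ((ζ^2 - 3*ζ + 2)) * hζ

lemma c_inv : (-1 - 2*ζ - 3*ζ^2 + ζ^3) * (ζ^2 - ζ^3) = 5 := by
  linear_combination ((-ζ^2 + 5*ζ - 5)) * hζ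

lemma id_vf : (-1 - 2*ζ - 3*ζ^2 + ζ^3) * (ζ + ζ^4 + 2) = -4 - 8*ζ - 7*ζ^2 - ζ^3 := by
  linear_combination ((ζ^3 - 4*ζ^2 + ζ + 2)) * hζ

lemma id_wf : (-1 - 2*ζ - 3*ζ^2 + ζ^3) * (2 * (ζ + ζ^4) - 1) = -(3 + 6*ζ - ζ^2 + 7*ζ^3) := by
  linear_combination ((2*ζ^3 - 8*ζ^2 + 2*ζ + 4)) * hζ

lemma id_slope (x y : R) : -540 * (A1 ζ x y)^2 * B1 ζ x y + 67500 * (v2 x y)^2 * w2 x y =
    M1 ζ x y * U1 ζ x y := by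
  unfold M1 U1 A1 B1 v2 w2 v3 w3
  linear_combination ((4500*ζ^5 - 14400*ζ^4 - 111600*ζ^3 - 118800*ζ^2 - 67500*ζ - 16200)*x^15 +
    (41400*ζ^3 + 46800*ζ^2 - 1800*ζ - 59400)*x^14*y +
    (-41400*ζ^4 - 88200*ζ^3 - 45000*ζ^2 + 61200*ζ + 86400)*x^13*y^2 +
    (41400*ζ^5 + 88200*ζ^4 + 86400*ζ^3 - 14400*ζ^2 - 88200*ζ - 113400)*x^12*y^3 +
    (9900*ζ^5 + 253800*ζ^4 - 73800*ζ^3 + 152100*ζ^2 - 207000*ζ - 229500)*x^10*y^5 +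
    (-129600*ζ^3 + 334800*ζ^2 - 334800*ζ + 426600)*x^9*y^6 +
    (129600*ζ^4 - 205200*ζ^3 - 91800*ζ - 129600)*x^8*y^7 +
    (-129600*ζ^5 + 205200*ζ^4 - 129600*ζ^3 + 426600*ζ^2 - 205200*ζ - 167400)*x^7*y^8 +
    (-125100*ζ^5 + 228600*ζ^4 - 111600*ζ^3 + 596700*ζ^2 + 108000*ζ - 8100)*x^5*y^10 +
    (3600*ζ^3 - 136800*ζ^2 + 181800*ζ - 75600)*x^4*y^11 +
    (-3600*ζ^4 + 133200*ζ^3 - 45000*ζ^2 - 106200*ζ + 48600)*x^3*y^12 +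
    (3600*ζ^5 - 133200*ζ^4 + 48600*ζ^3 - 30600*ζ^2 + 133200*ζ - 21600)*x^2*y^13 +
    (-27900*ζ^5 - 97200*ζ^4 - 73800*ζ^3 - 131400*ζ^2 - 85500*ζ - 16200)*y^15) * hζ

lemma id_X3 (x y : R) :
    75 * ((A1 ζ x y)^2 - 6*(A1 ζ x y)*(B1 ζ x y) + (B1 ζ x y)^2) +
    1875 * ((v2 x y)^2 - 6*(v2 x y)*(w2 x y) + (w2 x y)^2) +
    1875 * ((v3 ζ x y)^2 - 6*(v3 ζ x y)*(w3 ζ x y) + (w3 ζ x y)^2) = (M1 ζ x y)^2 := by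
  unfold M1 A1 B1 v2 w2 v3 w3
  linear_combination ((6000*ζ^2 + 12000*ζ + 9000)*x^10 +
    (-9000)*x^9*y +
    (9000*ζ + 9000)*x^8*y^2 +
    (-9000*ζ^2 - 9000*ζ - 9000)*x^7*y^3 +
    (45000)*x^6*y^4 +
    (-18000*ζ^2 + 36000*ζ - 18000)*x^5*y^5 +
    (-15000*ζ^2 + 15000*ζ + 18000)*x^4*y^6 +
    (60000*ζ^3 - 60000*ζ^2 - 18000*ζ + 27000)*x^3*y^7 +
    (-15000*ζ^4 + 15000*ζ^3 + 18000*ζ^2 - 27000*ζ + 18000)*x^2*y^8 +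
    (-3000*ζ^2 - 15000*ζ)*y^10) * hζ

lemma id_Y3 (x y : R) :
    67500 * (v3 ζ x y)^2 * w3 ζ x y = -540 * (A1 ζ x y)^2 * B1 ζ x y +
    M1 ζ x y * (75 * ((v3 ζ x y)^2 - 6*(v3 ζ x y)*(w3 ζ x y) + (w3 ζ x y)^2) -
      3*((A1 ζ x y)^2 - 6*(A1 ζ x y)*(B1 ζ x y) + (B1 ζ x y)^2)) := by
  unfold M1 A1 B1 v2 w2 v3 w3
  linear_combination ((-4500*ζ^5 + 14400*ζ^4 + 111600*ζ^3 + 118800*ζ^2 + 67500*ζ + 16200)*x^15 +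
    (-41400*ζ^3 - 46800*ζ^2 + 1800*ζ + 32400)*x^14*y +
    (41400*ζ^4 + 88200*ζ^3 + 45000*ζ^2 - 7200*ζ - 32400)*x^13*y^2 +
    (-41400*ζ^5 - 88200*ζ^4 - 86400*ζ^3 - 66600*ζ^2 + 7200*ζ + 32400)*x^12*y^3 +
    (135000*ζ^3 + 135000*ζ^2 + 135000*ζ)*x^11*y^4 +
    (-9900*ζ^5 - 307800*ζ^4 + 19800*ζ^3 - 206100*ζ^2 + 18000*ζ - 94500)*x^10*y^5 +
    (9000*ζ^5 + 9000*ζ^4 + 138600*ζ^3 - 145800*ζ^2 + 388800*ζ + 86400)*x^9*y^6 +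
    (72000*ζ^6 + 72000*ζ^5 - 57600*ζ^4 + 817200*ζ^3 - 873000*ζ^2 - 214200*ζ - 86400)*x^8*y^7 +
    (-18000*ζ^7 - 18000*ζ^6 + 111600*ζ^5 - 1618200*ζ^4 + 1236600*ζ^3 + 167400*ζ^2 + 214200*ζ + 86400)*x^7*y^8 +
    (1282500*ζ^5 - 1192500*ζ^4 - 225000*ζ)*x^6*y^9 +
    (-1035000*ζ^6 + 1160100*ζ^5 - 210600*ζ^4 - 320400*ζ^3 - 128700*ζ^2 - 135000*ζ - 18900)*x^5*y^10 +
    (450000*ζ^7 - 450000*ζ^6 - 18000*ζ^5 + 117000*ζ^4 - 111600*ζ^3 + 6300*ζ^2 - 42300*ζ - 32400)*x^4*y^11 +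
    (-202500*ζ^8 + 202500*ζ^7 - 144000*ζ^6 + 216000*ζ^5 - 140400*ζ^4 - 29700*ζ^3 + 13500*ζ^2 + 52200*ζ + 32400)*x^3*y^12 +
    (36000*ζ^7 - 54000*ζ^6 + 32400*ζ^5 + 56700*ζ^4 + 9900*ζ^3 - 23400*ζ^2 - 52200*ζ - 32400)*x^2*y^13 +
    (27900*ζ^5 + 97200*ζ^4 + 73800*ζ^3 + 131400*ζ^2 + 85500*ζ + 16200)*y^15) * hζ

lemma id_U (x y : R) :
    U1 ζ x y * ((-ζ^3 - ζ^2 - 3)*x^10 +
    (-5*ζ^3 - 5*ζ^2 - 10)*x^9*y +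
    (-10*ζ^3 - 10*ζ^2 - 15)*x^8*y^2 +
    (-10*ζ^3 - 10*ζ^2 - 15)*x^7*y^3 +
    (14*ζ^3 + 14*ζ^2 + 7)*x^5*y^5 +
    (10*ζ^3 + 10*ζ^2 - 5)*x^4*y^6 +
    (-5*ζ^3 - 5*ζ^2 + 5)*x^3*y^7 +
    (-5*ζ^3 - 5*ζ^2 + 5)*x^2*y^8 +
    (ζ^3 + ζ^2 - 2)*y^10) = 900 * Q2 (x^5) (y^5) ^ 2 := by
  unfold U1 A1 B1 v2 w2 Q2
  linear_combination ((-276*ζ^5 - 864*ζ^4 - 1164*ζ^3 - 1584*ζ^2 - 1944*ζ - 1548)*x^20 +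
    (-1380*ζ^5 - 4320*ζ^4 - 5820*ζ^3 - 6540*ζ^2 - 6780*ζ - 4860)*x^19*y +
    (-2760*ζ^5 - 8640*ζ^4 - 11640*ζ^3 - 11700*ζ^2 - 10620*ζ - 6840)*x^18*y^2 +
    (-2760*ζ^5 - 8640*ζ^4 - 11640*ζ^3 - 11700*ζ^2 - 10620*ζ - 6840)*x^17*y^3 +
    (4728*ζ^5 + 11592*ζ^4 + 15792*ζ^3 + 13992*ζ^2 + 552*ζ + 6084)*x^15*y^5 +
    (7080*ζ^5 + 6120*ζ^4 + 9120*ζ^3 + 9240*ζ^2 - 24720*ζ + 13860)*x^14*y^6 +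
    (7260*ζ^5 - 9360*ζ^4 - 10860*ζ^3 - 600*ζ^2 - 38280*ζ + 36540)*x^13*y^7 +
    (7260*ζ^5 - 9360*ζ^4 - 10860*ζ^3 - 600*ζ^2 - 38280*ζ + 36540)*x^12*y^8 +
    (-11844*ζ^5 + 8784*ζ^4 + 8784*ζ^3 + 9564*ζ^2 + 39144*ζ - 36252)*x^10*y^10 +
    (-8760*ζ^5 + 9360*ζ^4 + 7860*ζ^3 + 14520*ζ^2 + 22740*ζ - 19620)*x^9*y^11 +
    (4080*ζ^5 + 6120*ζ^4 + 3120*ζ^3 - 11700*ζ^2 + 12060*ζ - 1080)*x^8*y^12 +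
    (4080*ζ^5 + 6120*ζ^4 + 3120*ζ^3 - 11700*ζ^2 + 12060*ζ - 1080)*x^7*y^13 +
    (-528*ζ^5 - 11592*ζ^4 - 7392*ζ^3 + 5028*ζ^2 - 9492*ζ + 4536)*x^5*y^15 +
    (240*ζ^5 - 8640*ζ^4 - 5640*ζ^3 + 1320*ζ^2 + 2640*ζ + 180)*x^4*y^16 +
    (-120*ζ^5 + 4320*ζ^4 + 2820*ζ^3 - 600*ζ^2 - 3540*ζ + 720)*x^3*y^17 +
    (-120*ζ^5 + 4320*ζ^4 + 2820*ζ^3 - 600*ζ^2 - 3540*ζ + 720)*x^2*y^18 +
    (24*ζ^5 - 864*ζ^4 - 564*ζ^3 + 96*ζ^2 + 1596*ζ - 468)*y^20) * hζ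

end zeta

end Fermat.Agent.Icosa
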