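import Fermat.Agent.Icosa.Smap

set_option autoImplicit false

/-!
# Points of order 5 on `y² = x³ - 27 c₄ x - 54 c₆`
-/

open WeierstrassCurve WeierstrassCurve.Affine WeierstrassCurve.Affine.Point

namespace Fermat.Agent.Icosa

variable {k : Type*} [Field k] [DecidableEq k]

/-- `W` is the curve `y² = x³ - 27 c₄ x - 54 c₆`. -/
structure Sh (W : WeierstrassCurve k) (c4 c6 : k) : Prop where
  a1 : W.a₁ = 0
  a2 : W.a₂ = 0
  a3 : W.a₃ = 0
  a4 : W.a₄ = -27 * c4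
  a6 : W.a₆ = -54 * c6

/-- the abscissa -/
def Xc (v w : k) : k := 3 * (v^2 - 6*v*w + w^2)

/-- the ordinate -/
def Yc (v w : k) : k := -108 * v^2 * w

/-- The point `R` is represented by `(v, w)`. -/
def Rep (W : WeierstrassCurve k) (v w : k) (R : W.toAffine.Point) : Prop :=
  ∃ h : W.toAffine.Nonsingular (Xc v w) (Yc v w), R = .some _ _ h

omit [DecidableEq k] in
lemma Rep.unique {W : WeierstrassCurve k} {v w : k} {R R' : W.toAffine.Point}
    (h : Rep W v w R) (h' : Rep W v w R') : R = R' := by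
  obtain ⟨h1, rfl⟩ := h
  obtain ⟨h2, rfl⟩ := h'
  rfl

omit [DecidableEq k] in
lemma Rep.ne_zero {W : WeierstrassCurve k} {v w : k} {R : W.toAffine.Point}
    (h : Rep W v w R) : R ≠ 0 := by
  obtain ⟨h1, rfl⟩ := h
  exact some_ne_zero h1

section

variable {W : WeierstrassCurve k} {c4 c6 : k} (hW : Sh W c4 c6)
include hW

omit [DecidableEq k] in
lemma nonsing_iff {x y : k} (h2 : (2 : k) ≠ 0) (hy : y ≠ 0) :
    W.toAffine.Nonsingular x y ↔ y ^ 2 = x ^ 3 - 27 * c4 * x - 54 * c6 := by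
  rw [WeierstrassCurve.Affine.nonsingular_iff, WeierstrassCurve.Affine.equation_iff, hW.a1, hW.a2, hW.a3, hW.a4,
    hW.a6]
  constructor
  · rintro ⟨h, -⟩
    linear_combination h
  · intro h
    refine ⟨by linear_combination h, Or.inr ?_⟩
    intro h'
    apply hy
    have : (2 : k) * y = 0 := by linear_combination h'
    exact (mul_eq_zero.mp this).resolve_left h2

omit [DecidableEq k] in
lemma exists_rep (h2 : (2 : k) ≠ 0) (h3 : (3 : k) ≠ 0) {v w : k} (h4 : V4 v w = c4)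
    (h6 : V6 v w = c6) (hd : c4 ^ 3 ≠ c6 ^ 2) : ∃ R, Rep W v w R := by
  have hvw : v ≠ 0 ∧ w ≠ 0 := by
    constructor
    · rintro rfl
      apply hd
      rw [← h4, ← h6]; unfold V4 V6; ring
    · rintro rfl
      apply hd
      rw [← h4, ← h6]; unfold V4 V6; ring
  have hy : Yc v w ≠ 0 := by
    unfold Yc
    have : (-108 : k) * v^2 * w = -(2^2 * 3^3 * v^2 * w) := by ring
    rw [this]
    exact neg_ne_zero.mpr (mul_ne_zero (mul_ne_zero (mul_ne_zero (pow_ne_zero _ h2)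
      (pow_ne_zero _ h3)) (pow_ne_zero _ hvw.1)) hvw.2)
  refine ⟨.some (Xc v w) (Yc v w) ((nonsing_iff hW h2 hy).mpr ?_), ?_⟩
  · rw [← h4, ← h6]; unfold Xc Yc V4 V6; ring
  · exact ⟨_, rfl⟩

omit [DecidableEq k] in
lemma Rep.eqn {v w : k} {R : W.toAffine.Point} (h : Rep W v w R) :
    Yc v w ^ 2 = Xc v w ^ 3 - 27 * c4 * Xc v w - 54 * c6 := by
  obtain ⟨h1, -⟩ := h
  have := h1.1
  rw [WeierstrassCurve.Affine.equation_iff, hW.a1, hW.a2, hW.a3, hW.a4,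
    hW.a6] at this
  linear_combination this

omit [DecidableEq k] in
lemma Rep.neg {v w : k} {R : W.toAffine.Point} (h : Rep W v w R) : Rep W (-v) (-w) (-R) := by
  obtain ⟨h1, rfl⟩ := h
  have e1 : Xc (-v) (-w) = Xc v w := by unfold Xc; ring
  have e2 : Yc (-v) (-w) = W.toAffine.negY (Xc v w) (Yc v w) := by
    rw [negY, hW.a1, hW.a3]; unfold Yc; ring
  rw [neg_some]
  refine ⟨?_, ?_⟩
  · rw [e1, e2]; exact (nonsingular_neg _ _).mpr h1
  · rw [some.injEq]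
    exact ⟨e1.symm, e2.symm⟩

/-- the chord rule -/
lemma chord {x1 y1 x2 y2 L : k} (h1 : W.toAffine.Nonsingular x1 y1)
    (h2 : W.toAffine.Nonsingular x2 y2) (hx : x1 ≠ x2) (hL : y1 - y2 = L * (x1 - x2)) {x3 y3 : k}
    (hx3 : x1 + x2 + x3 = L ^ 2) (hy3 : y3 = -(y1 + L * (x3 - x1))) :
    ∃ h3 : W.toAffine.Nonsingular x3 y3,
      (Point.some x1 y1 h1 : W.toAffine.Point) + .some x2 y2 h2 = .some x3 y3 h3 := by
  rw [add_of_X_ne hx]
  have hs : W.toAffine.slope x1 x2 y1 y2 = L := by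
    rw [slope_of_X_ne hx, hL, mul_div_assoc, div_self (sub_ne_zero.mpr hx), mul_one]
  have e1 : W.toAffine.addX x1 x2 (W.toAffine.slope x1 x2 y1 y2) = x3 := by
    rw [hs, addX, hW.a1, hW.a2]; linear_combination -hx3
  have e2 : W.toAffine.addY x1 x2 y1 (W.toAffine.slope x1 x2 y1 y2) = y3 := by
    rw [addY, negAddY, e1, hs, negY, hW.a1, hW.a3, hy3]; ring
  refine ⟨?_, ?_⟩
  · have := nonsingular_add h1 h2 (fun hxy => hx hxy.1)
    rwa [e1, e2] at this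
  · rw [some.injEq]
    exact ⟨e1, e2⟩

/-- the tangent rule -/
lemma tangent {x1 y1 L : k} (h1 : W.toAffine.Nonsingular x1 y1) (h2 : (2 : k) ≠ 0)
    (hy : y1 ≠ 0) (hL : 3 * x1 ^ 2 - 27 * c4 = L * (2 * y1)) {x3 y3 : k}
    (hx3 : x1 + x1 + x3 = L ^ 2) (hy3 : y3 = -(y1 + L * (x3 - x1))) :
    ∃ h3 : W.toAffine.Nonsingular x3 y3,
      (Point.some x1 y1 h1 : W.toAffine.Point) + .some x1 y1 h1 = .some x3 y3 h3 := by
  have hne : y1 ≠ W.toAffine.negY x1 y1 := by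
    rw [negY, hW.a1, hW.a3]
    intro h
    have : (2 : k) * y1 = 0 := by linear_combination h
    rcases mul_eq_zero.mp this with h | h
    · exact h2 h
    · exact hy h
  rw [add_self_of_Y_ne hne]
  have h2y : (2 : k) * y1 ≠ 0 := mul_ne_zero h2 hy
  have hs : W.toAffine.slope x1 x1 y1 y1 = L := by
    rw [slope_of_Y_ne rfl hne, negY, hW.a1, hW.a2, hW.a3, hW.a4]
    have e : y1 - (-y1 - 0 * x1 - 0) = 2 * y1 := by ring
    rw [e, div_eq_iff h2y]
    linear_combination hL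
  have e1 : W.toAffine.addX x1 x1 (W.toAffine.slope x1 x1 y1 y1) = x3 := by
    rw [hs, addX, hW.a1, hW.a2]; linear_combination -hx3
  have e2 : W.toAffine.addY x1 x1 y1 (W.toAffine.slope x1 x1 y1 y1) = y3 := by
    rw [addY, negAddY, e1, hs, negY, hW.a1, hW.a3, hy3]; ring
  refine ⟨?_, ?_⟩
  · have := nonsingular_add h1 h1 (fun hxy => hne hxy.2)
    rwa [e1, e2] at this
  · rw [some.injEq]
    exact ⟨e1, e2⟩

omit [DecidableEq k] hW in
lemma Yc_ne (h2 : (2 : k) ≠ 0) (h3 : (3 : k) ≠ 0) {v w : k} (h4 : V4 v w = c4)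
    (h6 : V6 v w = c6) (hd : c4 ^ 3 ≠ c6 ^ 2) : v ≠ 0 ∧ w ≠ 0 ∧ Yc v w ≠ 0 := by
  have hvw : v ≠ 0 ∧ w ≠ 0 := by
    constructor
    · rintro rfl
      apply hd
      rw [← h4, ← h6]; unfold V4 V6; ring
    · rintro rfl
      apply hd
      rw [← h4, ← h6]; unfold V4 V6; ring
  refine ⟨hvw.1, hvw.2, ?_⟩
  unfold Yc
  have : (-108 : k) * v^2 * w = -(2^2 * 3^3 * v^2 * w) := by ring
  rw [this]
  exact neg_ne_zero.mpr (mul_ne_zero (mul_ne_zero (mul_ne_zero (pow_ne_zero _ h2)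
      (pow_ne_zero _ h3)) (pow_ne_zero _ hvw.1)) hvw.2)

/-- duplication -/
lemma Rep.double (h2 : (2 : k) ≠ 0) (h3 : (3 : k) ≠ 0) {v w : k} (h4 : V4 v w = c4)
    (h6 : V6 v w = c6) (hd : c4 ^ 3 ≠ c6 ^ 2) {R : W.toAffine.Point} (h : Rep W v w R) :
    Rep W w (-v) (R + R) := by
  obtain ⟨h1, rfl⟩ := h
  obtain ⟨-, -, hy⟩ := Yc_ne h2 h3 h4 h6 hd
  obtain ⟨h5, h6'⟩ := tangent hW h1 h2 hy (L := 3 * (v - w)) (x3 := Xc w (-v)) (y3 := Yc w (-v))
    (by rw [← h4]; unfold Xc Yc V4; ring) (by unfold Xc; ring) (by unfold Xc Yc; ring)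
  exact ⟨h5, h6'⟩

omit [DecidableEq k] hW in
/-- `(v, w)` is determined by the point. -/
lemma Rep.inj (h2 : (2 : k) ≠ 0) (h3 : (3 : k) ≠ 0) {v w : k} (h4 : V4 v w = c4)
    (h6 : V6 v w = c6) (hd : c4 ^ 3 ≠ c6 ^ 2) {v' w' : k} (h4' : V4 v' w' = c4)
    {R : W.toAffine.Point} (h : Rep W v w R) (h' : Rep W v' w' R) : v = v' ∧ w = w' := by
  obtain ⟨hv, hw, hy⟩ := Yc_ne h2 h3 h4 h6 hd
  obtain ⟨h1, h1'⟩ := h
  obtain ⟨h5, h5'⟩ := h'
  rw [h1', some.injEq] at h5'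
  obtain ⟨hX, hY⟩ := h5'
  have e1 : 3 * Xc v w ^ 2 - 27 * c4 = 3 * (v - w) * (2 * Yc v w) := by
    rw [← h4]; unfold Xc Yc V4; ring
  have e2 : 3 * Xc v' w' ^ 2 - 27 * c4 = 3 * (v' - w') * (2 * Yc v' w') := by
    rw [← h4']; unfold Xc Yc V4; ring
  rw [← hX, ← hY] at e2
  have hd1 : v - w = v' - w' := by
    have hne : (3 : k) * (2 * Yc v w) ≠ 0 := mul_ne_zero h3 (mul_ne_zero h2 hy)
    apply mul_left_cancel₀ hne
    linear_combination e2 - e1
  have hprod : v * w = v' * w' := by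
    have hne : (12 : k) ≠ 0 := by
      have : (12 : k) = 2^2 * 3 := by norm_num
      rw [this]; exact mul_ne_zero (pow_ne_zero _ h2) h3
    apply mul_left_cancel₀ hne
    unfold Xc at hX
    linear_combination 3 * (v - w + (v' - w')) * hd1 - hX
  have hv' : v = v' := by
    have hne : (108 : k) * (v * w) ≠ 0 := by
      have : (108 : k) = 2^2 * 3^3 := by norm_num
      rw [this]
      exact mul_ne_zero (mul_ne_zero (pow_ne_zero _ h2) (pow_ne_zero _ h3)) (mul_ne_zero hv hw)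
    apply mul_left_cancel₀ hne
    unfold Yc at hY
    linear_combination - hY - 108 * v' * hprod
  refine ⟨hv', ?_⟩
  rw [hv'] at hd1
  linear_combination -hd1

end

section

variable {W : WeierstrassCurve k} {c4 c6 : k} (hW : Sh W c4 c6) {ζ : k}
  (hζ : ζ^4 + ζ^3 + ζ^2 + ζ + 1 = 0) (h2 : (2 : k) ≠ 0) (h3 : (3 : k) ≠ 0) (h5 : (5 : k) ≠ 0)
  (hd : c4 ^ 3 ≠ c6 ^ 2)
include hW hζ h2 h3 h5 hd

/-- The basic addition law `P(p) + P(Sp) = P(ST²p)`. -/
lemma Rep.add_S {p : k × k} (hH : Hp p = c4) (hT : Tp p = c6) {R Q : W.toAffine.Point}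
    (hR : Rep W (pv ζ p) (pw ζ p) R) (hQ : Rep W (pv ζ (Sm ζ p)) (pw ζ (Sm ζ p)) Q) :
    Rep W (pv ζ (Sm ζ (tm ζ p))) (pw ζ (Sm ζ (tm ζ p))) (R + Q) := by
  obtain ⟨r1, rfl⟩ := hR
  obtain ⟨q1, rfl⟩ := hQ
  have hQ2 : Q2 (p.1^5) (p.2^5) ≠ 0 := by
    intro h
    apply hd
    have := H4_T6 (p.1^5) (p.2^5)
    rw [h] at this
    rw [← hH, ← hT, Hp, Tp]
    linear_combination this
  have hU : U1 ζ p.1 p.2 ≠ 0 := by
    intro h
    have := id_U hζ p.1 p.2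
    rw [h, zero_mul] at this
    have h900 : (900 : k) ≠ 0 := by
      have : (900 : k) = 2^2 * 3^2 * 5^2 := by norm_num
      rw [this]
      exact mul_ne_zero (mul_ne_zero (pow_ne_zero _ h2) (pow_ne_zero _ h3)) (pow_ne_zero _ h5)
    exact mul_ne_zero h900 (pow_ne_zero _ hQ2) this.symm
  have hv := five_pv hζ h5 p
  have hw := five_pw hζ h5 p
  have h25 : (25 : k) ≠ 0 := by
    have : (25 : k) = 5^2 := by norm_num
    rw [this]; exact pow_ne_zero _ h5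
  have h625 : (625 : k) ≠ 0 := by
    have : (625 : k) = 5^4 := by norm_num
    rw [this]; exact pow_ne_zero _ h5
  have s1 := id_slope hζ p.1 p.2
  have s2 := id_X3 hζ p.1 p.2
  have s3 := id_Y3 hζ p.1 p.2
  have hUe : U1 ζ p.1 p.2 = 25 * (Xc (pv ζ p) (pw ζ p) - Xc (pv ζ (Sm ζ p)) (pw ζ (Sm ζ p))) := by
    rw [pv_S hζ h5, pw_S hζ h5, U1, ← hv, ← hw]
    unfold Xc; ring
  obtain ⟨m, hm⟩ : ∃ m, M1 ζ p.1 p.2 = 25 * m := ⟨M1 ζ p.1 p.2 / 25, by field_simp⟩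
  rw [hm] at s1 s2 s3
  obtain ⟨h, h'⟩ := chord hW r1 q1 (L := m)
    (x3 := Xc (pv ζ (Sm ζ (tm ζ p))) (pw ζ (Sm ζ (tm ζ p))))
    (y3 := Yc (pv ζ (Sm ζ (tm ζ p))) (pw ζ (Sm ζ (tm ζ p))))
    (by
      intro h
      apply hU
      rw [hUe, h, sub_self, mul_zero])
    (by
      apply mul_left_cancel₀ h625
      rw [← hv, ← hw, hUe, pv_S hζ h5, pw_S hζ h5] at s1
      rw [pv_S hζ h5, pw_S hζ h5]
      unfold Xc Yc at *
      linear_combination s1)
    (by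
      apply mul_left_cancel₀ h625
      rw [← hv, ← hw] at s2
      rw [pv_S hζ h5, pw_S hζ h5, pv_St hζ h5, pw_St hζ h5]
      unfold Xc at *
      linear_combination s2)
    (by
      apply mul_left_cancel₀ h625
      rw [← hv, ← hw] at s3
      rw [pv_St hζ h5, pw_St hζ h5]
      unfold Xc Yc at *
      linear_combination -s3)
  exact ⟨h, h'⟩

end

end Fermat.Agent.Icosa
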