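import Fermat.Agent.Icosa.Ident

set_option autoImplicit false

/-!
# The maps `S`, `T²`, `s` and the covariant `Phi`
-/

namespace Fermat.Agent.Icosa

variable {k : Type*} [Field k] (ζ : k)

/-- first modular form -/
def vf (X Y : k) : k := (ζ^2 - ζ^3)⁻¹ * (((ζ + ζ^4)+2)*X - (2*(ζ + ζ^4)-1)*Y)

/-- second modular form -/
def wf (X Y : k) : k := (ζ^2 - ζ^3)⁻¹ * (-(((ζ + ζ^4)+2)*Y + (2*(ζ + ζ^4)-1)*X))

/-- first modular form at a point -/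
def pv (p : k × k) : k := vf ζ (p.1^5) (p.2^5)

/-- second modular form at a point -/
def pw (p : k × k) : k := wf ζ (p.1^5) (p.2^5)

/-- `H` at a point -/
def Hp (p : k × k) : k := H4 (p.1^5) (p.2^5)

/-- `T` at a point -/
def Tp (p : k × k) : k := T6 (p.1^5) (p.2^5)

/-- the map `S` -/
def Sm (p : k × k) : k × k :=
  ((ζ^2 - ζ^3)⁻¹ * (p.1 - (ζ + ζ^4) * p.2), (ζ^2 - ζ^3)⁻¹ * (-((ζ + ζ^4) * p.1 + p.2)))

/-- the map `s` -/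
def sm (p : k × k) : k × k := (-p.2, p.1)

/-- the map `T²` -/
def tm (p : k × k) : k × k := (ζ^2 * p.1, ζ^3 * p.2)

/-- the covariant -/
def Ph (l m : k) (p : k × k) : k × k :=
  (p.1 * (l + m * FA (p.1^5) (p.2^5)), p.2 * (l - m * FB (p.1^5) (p.2^5)))

variable {ζ}

lemma Hp_Ph (l m : k) (p : k × k) : Hp (Ph l m p) = CC4 (Hp p) (Tp p) l m := by
  rw [Hp, Hp, Tp, ← H4_cov, Ph]
  simp only [mul_pow]

lemma Tp_Ph (l m : k) (p : k × k) : Tp (Ph l m p) = CC6 (Hp p) (Tp p) l m := by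
  rw [Tp, Hp, Tp, ← T6_cov, Ph]
  simp only [mul_pow]

lemma Hp_sm (p : k × k) : Hp (sm p) = Hp p := by
  simp only [Hp, sm, H4]; ring

lemma Tp_sm (p : k × k) : Tp (sm p) = Tp p := by
  simp only [Tp, sm, T6]; ring

lemma Ph_sm (l m : k) (p : k × k) : Ph l m (sm p) = sm (Ph l m p) := by
  simp only [Ph, sm, FA, FB]
  ext
  · simp only; ring
  · simp only; ring

lemma pv_sm (p : k × k) : pv ζ (sm p) = pw ζ p := by
  simp only [pv, pw, sm, vf, wf]; ring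

lemma pw_sm (p : k × k) : pw ζ (sm p) = -pv ζ p := by
  simp only [pv, pw, sm, vf, wf]; ring

section

variable (hζ : ζ^4 + ζ^3 + ζ^2 + ζ + 1 = 0) (h5 : (5 : k) ≠ 0)
include hζ

lemma tm_pow1 (p : k × k) : (tm ζ p).1 ^ 5 = p.1 ^ 5 := by
  have h := zeta_pow hζ
  simp only [tm, mul_pow, ← pow_mul]
  rw [show 2 * 5 = 5 * 2 from rfl, pow_mul, h, one_pow, one_mul]

lemma tm_pow2 (p : k × k) : (tm ζ p).2 ^ 5 = p.2 ^ 5 := by
  have h := zeta_pow hζ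
  simp only [tm, mul_pow, ← pow_mul]
  rw [show 3 * 5 = 5 * 3 from rfl, pow_mul, h, one_pow, one_mul]

lemma Hp_tm (p : k × k) : Hp (tm ζ p) = Hp p := by
  rw [Hp, tm_pow1 hζ, tm_pow2 hζ, Hp]

lemma Tp_tm (p : k × k) : Tp (tm ζ p) = Tp p := by
  rw [Tp, tm_pow1 hζ, tm_pow2 hζ, Tp]

lemma pv_tm (p : k × k) : pv ζ (tm ζ p) = pv ζ p := by
  rw [pv, tm_pow1 hζ, tm_pow2 hζ, pv]

lemma pw_tm (p : k × k) : pw ζ (tm ζ p) = pw ζ p := by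
  rw [pw, tm_pow1 hζ, tm_pow2 hζ, pw]

lemma Ph_tm (l m : k) (p : k × k) : Ph l m (tm ζ p) = tm ζ (Ph l m p) := by
  rw [Ph, tm_pow1 hζ, tm_pow2 hζ, Ph]
  simp only [tm]
  ext <;> simp <;> ring

include h5

lemma c_ne : ζ^2 - ζ^3 ≠ 0 := by
  intro h
  have := c_inv hζ
  rw [h, mul_zero] at this
  exact h5 this.symm

lemma five_inv : 5 * (ζ^2 - ζ^3)⁻¹ = -1 - 2*ζ - 3*ζ^2 + ζ^3 := by
  have h := c_ne hζ h5
  rw [← c_inv hζ, mul_assoc, mul_inv_cancel₀ h, mul_one]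

lemma cinv_sq : (ζ^2 - ζ^3)⁻¹ ^ 2 * ((ζ + ζ^4) - 2) = 1 := by
  rw [← c_rel hζ, ← mul_pow, inv_mul_cancel₀ (c_ne hζ h5), one_pow]

omit hζ h5 in
lemma V4_smul (e a b : k) : V4 (e * a) (e * b) = e ^ 4 * V4 a b := by
  unfold V4; ring

omit hζ h5 in
lemma V6_smul (e a b : k) : V6 (e * a) (e * b) = e ^ 6 * V6 a b := by
  unfold V6; ring

lemma V4_f (X Y : k) : V4 (vf ζ X Y) (wf ζ X Y) = H4 X Y := by
  have h1 := id_V4 (g_rel hζ) X Y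
  have h2 := cinv_sq hζ h5
  rw [vf, wf, V4_smul, h1]
  calc _ = ((ζ^2 - ζ^3)⁻¹ ^ 2 * ((ζ + ζ^4) - 2)) ^ 2 * H4 X Y := by ring
    _ = _ := by rw [h2]; ring

lemma V6_f (X Y : k) : V6 (vf ζ X Y) (wf ζ X Y) = T6 X Y := by
  have h1 := id_V6 (g_rel hζ) X Y
  have h2 := cinv_sq hζ h5
  rw [vf, wf, V6_smul, h1]
  calc _ = ((ζ^2 - ζ^3)⁻¹ ^ 2 * ((ζ + ζ^4) - 2)) ^ 3 * T6 X Y := by ring
    _ = _ := by rw [h2]; ring

lemma V4_p (p : k × k) : V4 (pv ζ p) (pw ζ p) = Hp p := V4_f hζ h5 _ _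

lemma V6_p (p : k × k) : V6 (pv ζ p) (pw ζ p) = Tp p := V6_f hζ h5 _ _

lemma pv_S (p : k × k) : pv ζ (Sm ζ p) = v2 p.1 p.2 := by
  have h1 := id_S1 (g_rel hζ) p.1 p.2
  have h2 := cinv_sq hζ h5
  simp only [pv, vf, Sm, mul_pow]
  generalize (ζ^2 - ζ^3)⁻¹ = e at h2
  generalize ζ + ζ^4 = g at h1 h2
  generalize (p.1 - g * p.2)^5 = a at h1
  generalize (-(g * p.1 + p.2))^5 = b at h1
  generalize v2 p.1 p.2 = c at h1
  have h4 : e ^ 6 * (g - 2) ^ 3 = 1 := by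
    calc _ = (e ^ 2 * (g - 2)) ^ 3 := by ring
      _ = 1 := by rw [h2]; ring
  linear_combination e ^ 6 * h1 + c * h4

lemma pw_S (p : k × k) : pw ζ (Sm ζ p) = w2 p.1 p.2 := by
  have h1 := id_S2 (g_rel hζ) p.1 p.2
  have h2 := cinv_sq hζ h5
  simp only [pw, wf, Sm, mul_pow]
  generalize (ζ^2 - ζ^3)⁻¹ = e at h2
  generalize ζ + ζ^4 = g at h1 h2
  generalize (p.1 - g * p.2)^5 = a at h1
  generalize (-(g * p.1 + p.2))^5 = b at h1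
  generalize w2 p.1 p.2 = c at h1
  have h4 : e ^ 6 * (g - 2) ^ 3 = 1 := by
    calc _ = (e ^ 2 * (g - 2)) ^ 3 := by ring
      _ = 1 := by rw [h2]; ring
  linear_combination e ^ 6 * h1 + c * h4

lemma Hp_S (p : k × k) : Hp (Sm ζ p) = Hp p := by
  rw [← V4_p hζ h5, pv_S hζ h5, pw_S hζ h5, V4_v2, Hp]

lemma Tp_S (p : k × k) : Tp (Sm ζ p) = Tp p := by
  rw [← V6_p hζ h5, pv_S hζ h5, pw_S hζ h5, V6_v2, Tp]

lemma Ph_S (l m : k) (p : k × k) : Ph l m (Sm ζ p) = Sm ζ (Ph l m p) := by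
  have h1 := id_fx (g_rel hζ) p.1 p.2
  have h2 := id_fy (g_rel hζ) p.1 p.2
  have h3 := cinv_sq hζ h5
  have hA : ∀ a b e : k, FA (e ^ 5 * a) (e ^ 5 * b) = e ^ 10 * FA a b := by
    intro a b e; unfold FA; ring
  have hB : ∀ a b e : k, FB (e ^ 5 * a) (e ^ 5 * b) = e ^ 10 * FB a b := by
    intro a b e; unfold FB; ring
  simp only [Ph, Sm, mul_pow, hA, hB]
  generalize (ζ^2 - ζ^3)⁻¹ = e at h3
  generalize ζ + ζ^4 = g at h1 h2 h3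
  generalize FA (p.1^5) (p.2^5) = a at h1 h2
  generalize FB (p.1^5) (p.2^5) = b at h1 h2
  generalize FA ((p.1 - g * p.2)^5) ((-(g * p.1 + p.2))^5) = c at h1 h2
  generalize FB ((p.1 - g * p.2)^5) ((-(g * p.1 + p.2))^5) = d at h1 h2
  have h4 : e ^ 10 * (2 - g) ^ 5 = -1 := by
    calc _ = -(e ^ 2 * (g - 2)) ^ 5 := by ring
      _ = -1 := by rw [h3]; ring
  ext
  · simp only
    linear_combination (m * e * e ^ 10) * h2 - (m * e * (p.1 * a + g * (p.2 * b))) * h4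
  · simp only
    linear_combination (-m * e * e ^ 10) * h1 - (m * e * (p.2 * b - g * (p.1 * a))) * h4

lemma pv_St (p : k × k) : pv ζ (Sm ζ (tm ζ p)) = v3 ζ p.1 p.2 := by
  rw [pv_S hζ h5]
  have h := zeta_pow hζ
  have e : ∀ n : ℕ, ζ ^ (5 + n) = ζ ^ n := fun n => by rw [pow_add, h, one_mul]
  simp only [tm, v2, v3]
  linear_combination (-(p.1^5) * (ζ^5 + 1) + 3 * p.1^4 * p.2 * (ζ^6 + ζ) -
    4 * p.1^3 * p.2^2 * (ζ^7 + ζ^2) + 2 * p.1^2 * p.2^3 * (ζ^8 + ζ^3) -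
    p.1 * p.2^4 * (ζ^9 + ζ^4)) * h

lemma pw_St (p : k × k) : pw ζ (Sm ζ (tm ζ p)) = w3 ζ p.1 p.2 := by
  rw [pw_S hζ h5]
  have h := zeta_pow hζ
  simp only [tm, w2, w3]
  linear_combination (-p.1^4 * p.2 * (ζ^6 + ζ) -
    2 * p.1^3 * p.2^2 * (ζ^7 + ζ^2) - 4 * p.1^2 * p.2^3 * (ζ^8 + ζ^3) -
    3 * p.1 * p.2^4 * (ζ^9 + ζ^4) - p.2^5 * (ζ^10 + ζ^5 + 1)) * h

lemma five_pv (p : k × k) : 5 * pv ζ p = A1 ζ p.1 p.2 := by
  simp only [pv, vf, A1]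
  have h1 := id_vf hζ
  have h2 := id_wf hζ
  rw [← mul_assoc, five_inv hζ h5]
  linear_combination (p.1 ^ 5) * h1 - (p.2^5) * h2

lemma five_pw (p : k × k) : 5 * pw ζ p = B1 ζ p.1 p.2 := by
  simp only [pw, wf, B1]
  have h1 := id_vf hζ
  have h2 := id_wf hζ
  rw [← mul_assoc, five_inv hζ h5]
  linear_combination -(p.2 ^ 5) * h1 - (p.1^5) * h2

end

end Fermat.Agent.Icosa
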